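import Fermat.Agent.S41.Ihara.SignAbs
import Fermat.Agent.ES.KDefs
import Fermat.Prelude.Def_ModularCurve_PeriodHomPair

/-!
# S41, block I (Ihara), (SIGN): a homomorphism `χ : Γ₀(N) → C` killing the elliptic and parabolic
elements and satisfying the `δ²`-rule (`δ = diag(q, 1)`) is invariant under `Ad diag(-1, 1)`
-/

set_option autoImplicit false

open CongruenceSubgroup ModularCurve.Period
open scoped MatrixGroups

namespace Fermat.Agent.S41Lib

open Fermat.Agent.ESLib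

/-- the element `[[a, b], [c, d]]` of `SL₂(ℤ)` -/
def mkSL (a b c d : ℤ) (hdet : a * d - b * c = 1) : SL(2, ℤ) :=
  ⟨!![a, b; c, d], by rw [Matrix.det_fin_two_of]; exact hdet⟩

/-- the element `[[a, b], [c, d]]` of `Γ₀(N)` -/
def mkG (N : ℕ) (a b c d : ℤ) (hdet : a * d - b * c = 1) (hN : (N : ℤ) ∣ c) : Gamma0 N :=
  ⟨mkSL a b c d hdet, by
    rw [Gamma0_mem]
    show (((!![a, b; c, d] : Matrix (Fin 2) (Fin 2) ℤ) 1 0 : ℤ) : ZMod N) = 0
    simpa using (ZMod.intCast_zmod_eq_zero_iff_dvd c N).mpr hN⟩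

section

variable {N : ℕ}

/-- the entries of an element of `Γ₀(N)` -/
def ent (g : Gamma0 N) (i j : Fin 2) : ℤ := ((g : SL(2, ℤ)) : Matrix (Fin 2) (Fin 2) ℤ) i j

@[simp] theorem ent_mkG_00 (a b c d : ℤ) (hdet : a * d - b * c = 1) (hN : (N : ℤ) ∣ c) :
    ent (mkG N a b c d hdet hN) 0 0 = a := rfl

@[simp] theorem ent_mkG_01 (a b c d : ℤ) (hdet : a * d - b * c = 1) (hN : (N : ℤ) ∣ c) :
    ent (mkG N a b c d hdet hN) 0 1 = b := rfl

@[simp] theorem ent_mkG_10 (a b c d : ℤ) (hdet : a * d - b * c = 1) (hN : (N : ℤ) ∣ c) :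
    ent (mkG N a b c d hdet hN) 1 0 = c := rfl

@[simp] theorem ent_mkG_11 (a b c d : ℤ) (hdet : a * d - b * c = 1) (hN : (N : ℤ) ∣ c) :
    ent (mkG N a b c d hdet hN) 1 1 = d := rfl

theorem ent_det (g : Gamma0 N) : ent g 0 0 * ent g 1 1 - ent g 0 1 * ent g 1 0 = 1 := by
  have := (g : SL(2, ℤ)).2
  rw [Matrix.det_fin_two] at this
  exact this

theorem ent_dvd (g : Gamma0 N) : (N : ℤ) ∣ ent g 1 0 :=
  (ZMod.intCast_zmod_eq_zero_iff_dvd _ _).mp (Gamma0_mem.mp g.2)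

theorem ent_mul (g h : Gamma0 N) (i j : Fin 2) :
    ent (g * h) i j = ent g i 0 * ent h 0 j + ent g i 1 * ent h 1 j := by
  show (((g : SL(2, ℤ)) * (h : SL(2, ℤ)) : SL(2, ℤ)) : Matrix (Fin 2) (Fin 2) ℤ) i j = _
  rw [Matrix.SpecialLinearGroup.coe_mul, Matrix.mul_apply, Fin.sum_univ_two]
  rfl

theorem ent_ext {g h : Gamma0 N} (h00 : ent g 0 0 = ent h 0 0) (h01 : ent g 0 1 = ent h 0 1)
    (h10 : ent g 1 0 = ent h 1 0) (h11 : ent g 1 1 = ent h 1 1) : g = h := by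
  apply Subtype.ext
  apply Subtype.ext
  ext i j
  fin_cases i <;> fin_cases j
  · exact h00
  · exact h01
  · exact h10
  · exact h11

theorem ent_coprime (g : Gamma0 N) : IsCoprime (ent g 1 0) (ent g 1 1) :=
  ⟨-ent g 0 1, ent g 0 0, by linear_combination ent_det g⟩

theorem ent_jConj_10 (g : Gamma0 N) : ent (jConjGamma0 N g) 1 0 = -ent g 1 0 := by
  show jConjMat _ 1 0 = _
  rw [jConjMat_apply_one_zero]
  rfl

theorem ent_jConj_11 (g : Gamma0 N) : ent (jConjGamma0 N g) 1 1 = ent g 1 1 := by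
  show jConjMat _ 1 1 = _
  rw [jConjMat_apply_one_one]
  rfl

theorem exists_row {c d : ℤ} (hc : (N : ℤ) ∣ c) (hcop : IsCoprime c d) :
    ∃ g : Gamma0 N, ent g 1 0 = c ∧ ent g 1 1 = d := by
  obtain ⟨u, v, huv⟩ := hcop
  exact ⟨mkG N v (-u) c d (by linear_combination huv) hc, rfl, rfl⟩

variable {C : Type*} [AddCommGroup C] {χ : Additive (Gamma0 N) →+ C}

theorem EP_apply_eq_zero (hχ : χ ∈ EP N C) (g : Gamma0 N)
    (h : (ent g 0 0 + ent g 1 1) ^ 2 ≤ 4) : χ (Additive.ofMul g) = 0 := by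
  apply hχ g
  rw [Matrix.trace_fin_two]
  exact h

theorem chi_mul (g h : Gamma0 N) :
    χ (Additive.ofMul (g * h)) = χ (Additive.ofMul g) + χ (Additive.ofMul h) := by
  rw [ofMul_mul, map_add]

/-- `χ` only depends on the bottom row -/
theorem chi_eq_of_row (hχ : χ ∈ EP N C) {g g' : Gamma0 N} (h10 : ent g 1 0 = ent g' 1 0)
    (h11 : ent g 1 1 = ent g' 1 1) : χ (Additive.ofMul g) = χ (Additive.ofMul g') := by
  have hg := ent_det g
  have hg' := ent_det g'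
  have e : g = mkG N 1 (ent g 0 1 * ent g' 0 0 - ent g 0 0 * ent g' 0 1) 0 1 (by ring)
      (dvd_zero _) * g' := by
    apply ent_ext
    · rw [ent_mul, ent_mkG_00, ent_mkG_01]
      rw [h10, h11] at hg
      linear_combination (-ent g 0 0) * hg' + ent g' 0 0 * hg
    · rw [ent_mul, ent_mkG_00, ent_mkG_01]
      rw [h10, h11] at hg
      linear_combination (-ent g 0 1) * hg' + ent g' 0 1 * hg
    · rw [ent_mul, ent_mkG_10, ent_mkG_11, h10]
      ring
    · rw [ent_mul, ent_mkG_10, ent_mkG_11, h11]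
      ring
  rw [e, chi_mul, EP_apply_eq_zero hχ _ (by simp), zero_add]

open Classical in
/-- the function on bottom rows -/
noncomputable def rowFn (χ : Additive (Gamma0 N) →+ C) (c d : ℤ) : C :=
  if h : ∃ g : Gamma0 N, ent g 1 0 = c ∧ ent g 1 1 = d then χ (Additive.ofMul h.choose) else 0

theorem rowFn_eq (hχ : χ ∈ EP N C) (g : Gamma0 N) :
    rowFn χ (ent g 1 0) (ent g 1 1) = χ (Additive.ofMul g) := by
  have h : ∃ g' : Gamma0 N, ent g' 1 0 = ent g 1 0 ∧ ent g' 1 1 = ent g 1 1 := ⟨g, rfl, rfl⟩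
  rw [rowFn, dif_pos h]
  exact chi_eq_of_row hχ h.choose_spec.1 h.choose_spec.2

theorem rowFn_eq' (hχ : χ ∈ EP N C) (g : Gamma0 N) {c d : ℤ} (hc : ent g 1 0 = c)
    (hd : ent g 1 1 = d) : rowFn χ c d = χ (Additive.ofMul g) := by
  rw [← hc, ← hd, rowFn_eq hχ]

/-- the rules -/
theorem signRules_rowFn (q : ℕ) (hχ : χ ∈ EP N C)
    (hrule : ∀ g g' : Gamma0 N, ent g' 0 0 = ent g 0 0 → ent g' 1 1 = ent g 1 1 →
      ent g' 0 1 = (q : ℤ) ^ 2 * ent g 0 1 → ent g 1 0 = (q : ℤ) ^ 2 * ent g' 1 0 →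
      χ (Additive.ofMul g) = χ (Additive.ofMul g')) :
    SignRules N q (rowFn χ) where
  R1 := by
    intro c d x hc hcop
    obtain ⟨g, h10, h11⟩ := exists_row hc hcop
    rw [rowFn_eq' hχ g h10 h11,
      rowFn_eq' hχ (g * mkG N 1 x 0 1 (by ring) (dvd_zero _)) (c := c) (d := d + x * c)
        (by rw [ent_mul, ent_mkG_00, ent_mkG_10, h10]; ring)
        (by rw [ent_mul, ent_mkG_01, ent_mkG_11, h10, h11]; ring),
      chi_mul, EP_apply_eq_zero hχ (mkG N 1 x 0 1 _ _) (by simp), add_zero]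
  R2 := by
    intro c d y hc hcop
    obtain ⟨g, h10, h11⟩ := exists_row hc hcop
    rw [rowFn_eq' hχ g h10 h11,
      rowFn_eq' hχ (g * mkG N 1 0 (N * y) 1 (by ring) (Dvd.intro _ rfl)) (c := c + N * y * d)
        (d := d)
        (by rw [ent_mul, ent_mkG_00, ent_mkG_10, h10, h11]; ring)
        (by rw [ent_mul, ent_mkG_01, ent_mkG_11, h11]; ring),
      chi_mul, EP_apply_eq_zero hχ (mkG N 1 0 (N * y) 1 _ _) (by simp), add_zero]
  R3 := by
    intro c d hc hcop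
    obtain ⟨g, h10, h11⟩ := exists_row hc hcop
    rw [rowFn_eq' hχ g h10 h11,
      rowFn_eq' hχ (g * mkG N (-1) 0 0 (-1) (by ring) (dvd_zero _)) (c := -c) (d := -d)
        (by rw [ent_mul, ent_mkG_00, ent_mkG_10, h10]; ring)
        (by rw [ent_mul, ent_mkG_01, ent_mkG_11, h11]; ring),
      chi_mul, EP_apply_eq_zero hχ (mkG N (-1) 0 0 (-1) _ _) (by simp), add_zero]
  R4 := by
    intro c d hc hcop
    obtain ⟨g, h10, h11⟩ := exists_row (N := N) (Dvd.dvd.mul_left hc _) hcop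
    have hdet := ent_det g
    rw [rowFn_eq' hχ g h10 h11,
      rowFn_eq' hχ (mkG N (ent g 0 0) ((q : ℤ) ^ 2 * ent g 0 1) c d
        (by rw [h10, h11] at hdet; linear_combination hdet) hc) (c := c) (d := d) rfl rfl]
    exact hrule _ _ rfl h11.symm rfl h10

/-- **(SIGN)** (`q = 2` allowed) -/
theorem sign_main {q : ℕ} (hq : q.Prime) (hqN : ¬ q ∣ N) (hχ : χ ∈ EP N C)
    (hrule : ∀ g g' : Gamma0 N, ent g' 0 0 = ent g 0 0 → ent g' 1 1 = ent g 1 1 →
      ent g' 0 1 = (q : ℤ) ^ 2 * ent g 0 1 → ent g 1 0 = (q : ℤ) ^ 2 * ent g' 1 0 →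
      χ (Additive.ofMul g) = χ (Additive.ofMul g'))
    (g : Gamma0 N) : χ (Additive.ofMul (jConjGamma0 N g)) = χ (Additive.ofMul g) := by
  rw [← rowFn_eq hχ g, ← rowFn_eq hχ (jConjGamma0 N g), ent_jConj_10, ent_jConj_11]
  exact sign_abs (signRules_rowFn q hχ hrule) hq hqN (ent_dvd g) (ent_coprime g)

/-- `g' = δ g δ⁻¹`, `δ = diag(q, 1)`, entry-wise -/
def IsDel (q : ℕ) (g g' : Gamma0 N) : Prop :=
  ent g' 0 0 = ent g 0 0 ∧ ent g' 1 1 = ent g 1 1 ∧ ent g' 0 1 = (q : ℤ) * ent g 0 1 ∧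
    ent g 1 0 = (q : ℤ) * ent g' 1 0

theorem chi_conj {χ : Additive (Gamma0 N) →+ C} (γ γi g : Gamma0 N) (h : γ * γi = 1) :
    χ (Additive.ofMul (γ * g * γi)) = χ (Additive.ofMul g) := by
  have h1 : χ (Additive.ofMul γ) + χ (Additive.ofMul γi) = 0 := by
    rw [← chi_mul, h]
    exact map_zero χ
  rw [chi_mul, chi_mul]
  have e : χ (Additive.ofMul γ) + χ (Additive.ofMul g) + χ (Additive.ofMul γi)
      = χ (Additive.ofMul g) + (χ (Additive.ofMul γ) + χ (Additive.ofMul γi)) := by abel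
  rw [e, h1, add_zero]

/-- the Atkin-Lehner conjugation: the kernel relation is symmetric -/
theorem ker_swap {q : ℕ} (hqN : Nat.Coprime q N) {φ₁ φ₂ : Additive (Gamma0 N) →+ C}
    (hker : ∀ g g' : Gamma0 N, IsDel q g g' →
      φ₁ (Additive.ofMul g) + φ₂ (Additive.ofMul g') = 0)
    (g g' : Gamma0 N) (h : IsDel q g g') :
    φ₂ (Additive.ofMul g) + φ₁ (Additive.ofMul g') = 0 := by
  obtain ⟨t, z, htz⟩ : ∃ t z : ℤ, (q : ℤ) * t - N * z = 1 := by
    obtain ⟨u, v, huv⟩ := Nat.isCoprime_iff_coprime.mpr hqN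
    exact ⟨u, -v, by linear_combination huv⟩
  obtain ⟨h00, h11, h01, h10⟩ := h
  set γ₁ : Gamma0 N := mkG N 1 1 (N * z) (q * t) (by linear_combination htz) (Dvd.intro _ rfl)
    with hγ₁
  set γ₁i : Gamma0 N := mkG N (q * t) (-1) (-(N * z)) 1 (by linear_combination htz)
    (Dvd.dvd.neg_right (Dvd.intro _ rfl)) with hγ₁i
  set γ₂ : Gamma0 N := mkG N q 1 (N * z) t (by linear_combination htz) (Dvd.intro _ rfl)
    with hγ₂
  set γ₂i : Gamma0 N := mkG N t (-1) (-(N * z)) q (by linear_combination htz)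
    (Dvd.dvd.neg_right (Dvd.intro _ rfl)) with hγ₂i
  have e1 : γ₁ * γ₁i = 1 := by
    apply ent_ext <;> rw [ent_mul] <;> simp only [hγ₁, hγ₁i, ent_mkG_00, ent_mkG_01, ent_mkG_10,
      ent_mkG_11]
    · show _ = (1 : ℤ)
      linear_combination htz
    · show _ = (0 : ℤ)
      ring
    · show _ = (0 : ℤ)
      ring
    · show _ = (1 : ℤ)
      linear_combination htz
  have e2 : γ₂ * γ₂i = 1 := by
    apply ent_ext <;> rw [ent_mul] <;> simp only [hγ₂, hγ₂i, ent_mkG_00, ent_mkG_01, ent_mkG_10,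
      ent_mkG_11]
    · show _ = (1 : ℤ)
      linear_combination htz
    · show _ = (0 : ℤ)
      ring
    · show _ = (0 : ℤ)
      ring
    · show _ = (1 : ℤ)
      linear_combination htz
  have hD : IsDel q (γ₁ * g' * γ₁i) (γ₂ * g * γ₂i) := by
    refine ⟨?_, ?_, ?_, ?_⟩ <;>
      simp only [ent_mul, hγ₁, hγ₁i, hγ₂, hγ₂i, ent_mkG_00, ent_mkG_01, ent_mkG_10, ent_mkG_11,
        h00, h11, h01, h10] <;> ring
  have := hker _ _ hD
  rw [chi_conj _ _ _ e1, chi_conj _ _ _ e2] at this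
  rw [add_comm]
  exact this

/-- the kernel relation implies the `δ²`-rule -/
theorem rule_of_ker {q : ℕ} (hqN : Nat.Coprime q N) {φ₁ φ₂ : Additive (Gamma0 N) →+ C}
    (hker : ∀ g g' : Gamma0 N, IsDel q g g' →
      φ₁ (Additive.ofMul g) + φ₂ (Additive.ofMul g') = 0)
    (g g' : Gamma0 N) (h00 : ent g' 0 0 = ent g 0 0) (h11 : ent g' 1 1 = ent g 1 1)
    (h01 : ent g' 0 1 = (q : ℤ) ^ 2 * ent g 0 1) (h10 : ent g 1 0 = (q : ℤ) ^ 2 * ent g' 1 0) :
    φ₁ (Additive.ofMul g) = φ₁ (Additive.ofMul g') ∧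
      φ₂ (Additive.ofMul g) = φ₂ (Additive.ofMul g') := by
  have hdet := ent_det g
  set m : Gamma0 N := mkG N (ent g 0 0) (q * ent g 0 1) (q * ent g' 1 0) (ent g 1 1)
    (by rw [h10] at hdet; linear_combination hdet) (Dvd.dvd.mul_left (ent_dvd g') _) with hm
  have hD1 : IsDel q g m := ⟨rfl, rfl, rfl, by rw [hm, ent_mkG_10, h10]; ring⟩
  have hD2 : IsDel q m g' := ⟨h00, h11, by rw [hm, ent_mkG_01, h01]; ring, rfl⟩
  have a1 := hker _ _ hD1
  have a2 := hker _ _ hD2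
  have b1 := ker_swap hqN hker _ _ hD1
  have b2 := ker_swap hqN hker _ _ hD2
  constructor
  · have : φ₁ (Additive.ofMul g) - φ₁ (Additive.ofMul g') = 0 := by
      have e : φ₁ (Additive.ofMul g) - φ₁ (Additive.ofMul g')
          = (φ₁ (Additive.ofMul g) + φ₂ (Additive.ofMul m))
            - (φ₂ (Additive.ofMul m) + φ₁ (Additive.ofMul g')) := by abel
      rw [e, a1, b2, sub_zero]
    exact sub_eq_zero.mp this
  · have : φ₂ (Additive.ofMul g) - φ₂ (Additive.ofMul g') = 0 := by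
      have e : φ₂ (Additive.ofMul g) - φ₂ (Additive.ofMul g')
          = (φ₂ (Additive.ofMul g) + φ₁ (Additive.ofMul m))
            - (φ₁ (Additive.ofMul m) + φ₂ (Additive.ofMul g')) := by abel
      rw [e, b1, a2, sub_zero]
    exact sub_eq_zero.mp this

/-- **(SIGN) for the kernel of `a = (res, res ∘ Ad δ)`** -/
theorem sign_of_ker {q : ℕ} (hq : q.Prime) (hqN : ¬ q ∣ N) {φ₁ φ₂ : Additive (Gamma0 N) →+ C}
    (h₁ : φ₁ ∈ EP N C) (h₂ : φ₂ ∈ EP N C)
    (hker : ∀ g g' : Gamma0 N, IsDel q g g' →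
      φ₁ (Additive.ofMul g) + φ₂ (Additive.ofMul g') = 0) (g : Gamma0 N) :
    φ₁ (Additive.ofMul (jConjGamma0 N g)) = φ₁ (Additive.ofMul g) ∧
      φ₂ (Additive.ofMul (jConjGamma0 N g)) = φ₂ (Additive.ofMul g) := by
  have hcop : Nat.Coprime q N := (Nat.Prime.coprime_iff_not_dvd hq).mpr hqN
  exact ⟨sign_main hq hqN h₁ (fun g g' a b c d => (rule_of_ker hcop hker g g' a b c d).1) g,
    sign_main hq hqN h₂ (fun g g' a b c d => (rule_of_ker hcop hker g g' a b c d).2) g⟩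

end

end Fermat.Agent.S41Lib
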