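import Fermat.Agent.ES.RtHecke
import Fermat.Agent.S21.Injective
import Fermat.Prelude.Def_GaloisRep_ComplexConjugation
import Fermat.Prelude.Def_ModularCurve_PeriodHomPair

/-!
# S41, block I (Ihara), (I2b): complex conjugation on `Rt`

`Rt N m f φ → Rt N m (gal c̄ f) (-(φ ∘ Ad diag(-1,1)))`
-/

set_option autoImplicit false
set_option synthInstance.maxHeartbeats 400000
set_option linter.unusedSimpArgs false

open AlgebraicCurve ModularCurve CongruenceSubgroup UpperHalfPlane ModularForm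
open ModularCurve.Period
open scoped MatrixGroups Manifold ComplexConjugate

namespace Fermat.Agent.S41Lib

open Fermat.Agent.S18Lib Fermat.Agent.S20Lib Fermat.Agent.S24Lib Fermat.Agent.S28Lib
  Fermat.Agent.ESLib Fermat.Agent.S21Lib

noncomputable section

theorem RC_slash_J (k : ℤ) (u : ℍ → ℂ) : u ∣[k] J = fun τ : ℍ => conj (u (J • τ)) := by
  funext τ
  simp [ModularForm.slash_apply, UpperHalfPlane.σ, UpperHalfPlane.denom,
    show ¬ (1 : ℝ) < 0 by norm_num]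

theorem RC_J_mul (γ : SL(2, ℤ)) :
    J * (γ : GL (Fin 2) ℝ) = ((jConjSL γ : SL(2, ℤ)) : GL (Fin 2) ℝ) * J := by
  have h00 : (jConjSL γ) 0 0 = γ 0 0 := by
    show (jConjSL γ : Matrix (Fin 2) (Fin 2) ℤ) 0 0 = _; simp
  have h01 : (jConjSL γ) 0 1 = - γ 0 1 := by
    show (jConjSL γ : Matrix (Fin 2) (Fin 2) ℤ) 0 1 = _; simp
  have h10 : (jConjSL γ) 1 0 = - γ 1 0 := by
    show (jConjSL γ : Matrix (Fin 2) (Fin 2) ℤ) 1 0 = _; simp
  have h11 : (jConjSL γ) 1 1 = γ 1 1 := by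
    show (jConjSL γ : Matrix (Fin 2) (Fin 2) ℤ) 1 1 = _; simp
  apply Units.ext
  rw [Units.val_mul, Units.val_mul, val_J]
  ext i j
  fin_cases i <;> fin_cases j <;>
    simp [Matrix.mul_apply, Fin.sum_univ_two, h00, h01, h10, h11]

theorem RC_slash (k : ℤ) (u : ℍ → ℂ) (γ : SL(2, ℤ)) :
    (u ∣[k] J) ∣[k] γ = (u ∣[k] jConjSL γ) ∣[k] J := by
  rw [SL_slash, ← SlashAction.slash_mul, RC_J_mul, SlashAction.slash_mul, ← SL_slash]

theorem RC_smul (k : ℤ) (u : ℍ → ℂ) (c : ℂ) : (c • u) ∣[k] J = conj c • (u ∣[k] J) := by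
  rw [RC_slash_J, RC_slash_J]
  funext τ
  simp

theorem RC_tendsto_J : Filter.Tendsto (fun z : ℍ => J • z) atImInfty atImInfty := by
  rw [atImInfty, Filter.tendsto_comap_iff]
  have : (UpperHalfPlane.im ∘ fun z : ℍ => J • z) = UpperHalfPlane.im := by
    funext z
    show ((J • z : ℍ) : ℂ).im = (z : ℂ).im
    rw [coe_J_smul]
    simp
  rw [this]
  exact Filter.tendsto_comap

theorem RC_bdd (k : ℤ) {w : ℍ → ℂ} (hw : IsBoundedAtImInfty w) : IsBoundedAtImInfty (w ∣[k] J) := by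
  rw [RC_slash_J]
  have h1 : IsBoundedAtImInfty (fun τ : ℍ => w (J • τ)) :=
    Asymptotics.IsBigO.comp_tendsto hw RC_tendsto_J
  unfold IsBoundedAtImInfty Filter.BoundedAtFilter at h1 ⊢
  rw [← Asymptotics.isBigO_norm_left] at h1 ⊢
  simpa using h1

theorem RC_chr {N : ℕ} (m : ℕ) (φ : Additive (Gamma0 N) →+ ℤ) (γ : Gamma0 N) :
    chr m (-(φ.comp (MonoidHom.toAdditive (jConjGamma0 N)))) γ =
      conj (chr m φ (jConjGamma0 N γ)) := by
  unfold chr
  rw [← Complex.exp_conj]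
  congr 1
  have e : (-(φ.comp (MonoidHom.toAdditive (jConjGamma0 N)))) (Additive.ofMul γ) =
      -φ (Additive.ofMul (jConjGamma0 N γ)) := rfl
  rw [e]
  simp only [map_div₀, map_mul, Complex.conj_ofReal, Complex.conj_I, map_ofNat, map_intCast,
    map_natCast]
  push_cast
  ring

theorem RC_isMFc {N m : ℕ} {k : ℤ} {φ : Additive (Gamma0 N) →+ ℤ} {u : ℍ → ℂ}
    (hu : IsMFc N k (chr m φ) u) :
    IsMFc N k (chr m (-(φ.comp (MonoidHom.toAdditive (jConjGamma0 N))))) (u ∣[k] J) where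
  holo := hu.holo.slash k J
  inv γ := by
    rw [RC_slash, RC_chr, ← RC_smul]
    congr 1
    exact hu.inv (jConjGamma0 N γ)
  bdd g := by
    rw [RC_slash]
    exact RC_bdd k (hu.bdd _)

theorem RC_qi (k : ℤ) {u : ℍ → ℂ} (hu : QI ⊤ 1 u) :
    QI ⊤ 1 (u ∣[k] J) ∧ qL (u ∣[k] J) = coeffMap (starRingEnd ℂ) (qL u) := by
  have hs : ∀ τ : ℍ, HasSum (fun n : ℕ => conj ((qExpansion 1 u).coeff n) •
      Function.Periodic.qParam (1 : ℕ) (τ : ℂ) ^ n) ((u ∣[k] J) τ) := by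
    intro τ
    have h1 := hu.hasSum one_pos (J • τ)
    have h3 := (Complex.hasSum_conj'.mpr h1)
    rw [RC_slash_J]
    convert h3 using 2 with n
    rw [inj_qParam_J, smul_eq_mul, smul_eq_mul, map_mul, map_pow, Complex.conj_conj, Nat.cast_one]
  have hq : QI ⊤ 1 (u ∣[k] J) :=
    QI.of_hasSum one_pos (hu.holo.slash k J) (fun _ => Subring.mem_top _) hs
  refine ⟨hq, ?_⟩
  have han := hq.analytic one_pos
  ext n
  rw [coeffMap_coeff, qL, qL]
  rcases le_or_gt 0 n with hn | hn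
  · lift n to ℕ using hn
    rw [HahnSeries.ofPowerSeries_apply_coeff, HahnSeries.ofPowerSeries_apply_coeff]
    have := QIAux.coeff_unique (h := ((1 : ℕ) : ℝ)) (by norm_num) han hs n
    simp only [Nat.cast_one] at this
    exact this.symm
  · rw [ofPowerSeries_coeff_of_neg _ hn, ofPowerSeries_coeff_of_neg _ hn, map_zero]

theorem RC_J_J (k : ℤ) (u : ℍ → ℂ) : (u ∣[k] J) ∣[k] J = u := by
  rw [← SlashAction.slash_mul]
  have : J * J = 1 := by
    apply Units.ext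
    rw [Units.val_mul, val_J]
    ext i j
    fin_cases i <;> fin_cases j <;> simp [Matrix.mul_apply, Fin.sum_univ_two]
  rw [this, SlashAction.slash_one]

/-- (I2b) -/
theorem RC_conj {N m : ℕ} [NeZero N] (cb : GQ)
    (hcb : ∀ x : Qb, iotaC (cb x) = starRingEnd ℂ (iotaC x)) {f : FB N}
    {φ : Additive (Gamma0 N) →+ ℤ} (hφ : φ ∈ EP N ℤ) (hf : Rt N m f φ) :
    Rt N m (gal N cb f) (-(φ.comp (MonoidHom.toAdditive (jConjGamma0 N)))) := by
  obtain ⟨k, u, v, hu, hv, hu0, hv0, e⟩ := hf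
  have hv' : IsMFc N k (chr m (0 : Additive (Gamma0 N) →+ ℤ)) v := hg_isMFc_zero_iff.2 hv
  have qu : QI ⊤ 1 u := hu.qi hφ
  have qv : QI ⊤ 1 v := hv'.qi (zero_mem _)
  have hV : IsMF (Gamma0 N) k (v ∣[k] J) := by
    have h1 := RC_isMFc hv'
    have h2 : (-((0 : Additive (Gamma0 N) →+ ℤ).comp (MonoidHom.toAdditive (jConjGamma0 N)))) = 0 := by
      ext γ
      simp
    rw [h2] at h1
    exact hg_isMFc_zero_iff.1 h1
  have hne : ∀ w : ℍ → ℂ, w ≠ 0 → w ∣[k] J ≠ 0 := by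
    intro w hw h0
    apply hw
    rw [← RC_J_J k w, h0, SlashAction.zero_slash]
  refine ⟨k, u ∣[k] J, v ∣[k] J, RC_isMFc hu, hV, hne u hu0, hne v hv0, ?_⟩
  have e1 : coeffMap iotaC ((gal N cb f : FB N) : LaurentSeries Qb) =
      coeffMap (starRingEnd ℂ) (coeffMap iotaC (f : LaurentSeries Qb)) := by
    ext n
    rw [coe_gal, coeffMap_coeff, coeffMap_coeff, coeffMap_coeff, coeffMap_coeff]
    exact hcb _
  rw [e1, (RC_qi k qu).2, (RC_qi k qv).2, ← map_pow, ← map_pow, ← map_mul, e]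

theorem RC_iotaC_conj (x : Qb) :
    iotaC (complexConjugation x) = starRingEnd ℂ (iotaC x) :=
  complexEmbedding_complexConjugation x

end

end Fermat.Agent.S41Lib
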