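import Fermat.Agent.S40.Cst.ExistsPrime
import Fermat.Agent.S58.NewtonPow

/-!
# S41, block I (Ihara at `λ`), (I3): complex conjugation is not a scalar

`V` a simple two dimensional `𝔽_p[G_ℚ]`-module, `X ≠ 0` an `𝔽_p[G_ℚ]`-module, both of finite level,
with the same Eichler-Shimura relations `Frob_ℓ² - a_ℓ Frob_ℓ + ℓ = 0`.  Then complex conjugation
does not act on `X` as a scalar.
-/

set_option autoImplicit false

namespace Fermat.Agent.S41Lib

open Fermat.Agent.S40Lib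

local notation "Qb" => AlgebraicClosure ℚ
local notation "GQ" => (AlgebraicClosure ℚ ≃ₐ[ℚ] AlgebraicClosure ℚ)

theorem I3_smul_one_inj {k X : Type*} [Field k] [AddCommGroup X] [Module k X] [Nontrivial X]
    {a b : k} (h : a • (1 : Module.End k X) = b • (1 : Module.End k X)) : a = b := by
  obtain ⟨x, hx⟩ := exists_ne (0 : X)
  have h1 := congrArg (fun f : Module.End k X => f x) h
  simp only [LinearMap.smul_apply, Module.End.one_apply] at h1
  exact smul_left_injective k hx h1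

/-- the abstract statement -/
theorem I3_group {p : ℕ} [Fact p.Prime] (hp2 : p ≠ 2) {G : Type} [Group G]
    {V : Type} [AddCommGroup V] [Module (ZMod p) V]
    (ρ : G →* Module.End (ZMod p) V)
    (hV : ∀ N : Submodule (ZMod p) V, (∀ g, ∀ x ∈ N, ρ g x ∈ N) → N = ⊥ ∨ N = ⊤)
    (hdim : Module.finrank (ZMod p) V = 2)
    {X : Type} [AddCommGroup X] [Module (ZMod p) X] [Nontrivial X]
    (r : G →* Module.End (ZMod p) X) (ω : G →* (ZMod p)ˣ)
    (hQ : ∀ g, ∃ t : ZMod p,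
      ρ g * ρ g - t • ρ g + ((ω g : (ZMod p)ˣ) : ZMod p) • (1 : Module.End (ZMod p) V) = 0 ∧
      r g * r g - t • r g + ((ω g : (ZMod p)ˣ) : ZMod p) • (1 : Module.End (ZMod p) X) = 0)
    (c : G) (hc2 : c * c = 1) (hωc : ((ω c : (ZMod p)ˣ) : ZMod p) = -1) (ε : ZMod p)
    (hc : r c = ε • (1 : Module.End (ZMod p) X)) : False := by
  have hp : p.Prime := Fact.out
  have h2 : (2 : ZMod p) ≠ 0 := by
    intro h
    have h2' : ((2 : ℕ) : ZMod p) = 0 := by exact_mod_cast h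
    rw [ZMod.natCast_eq_zero_iff] at h2'
    exact hp2 ((Nat.prime_dvd_prime_iff_eq hp Nat.prime_two).1 h2')
  have hε : ε * ε = 1 := by
    apply I3_smul_one_inj (k := ZMod p) (X := X)
    have h1 : r c * r c = 1 := by rw [← map_mul, hc2, map_one]
    rw [hc, smul_mul_smul_comm, mul_one] at h1
    rw [h1, one_smul]
  -- every `g` acts on `X` as a scalar
  have hscal : ∀ g, ∃ ν : (ZMod p)ˣ, r g = ((ν : (ZMod p)ˣ) : ZMod p) • (1 : Module.End (ZMod p) X) := by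
    intro g
    obtain ⟨t, -, h1⟩ := hQ g
    obtain ⟨t', -, h2'⟩ := hQ (c * g)
    have hω : ((ω (c * g) : (ZMod p)ˣ) : ZMod p) = -((ω g : (ZMod p)ˣ) : ZMod p) := by
      rw [map_mul, Units.val_mul, hωc, neg_one_mul]
    rw [map_mul, hc, hω] at h2'
    set R := r g with hR
    set d : ZMod p := ((ω g : (ZMod p)ˣ) : ZMod p) with hd
    have hd0 : d ≠ 0 := (ω g).ne_zero
    have h3 : R * R - (ε * t') • R - d • (1 : Module.End (ZMod p) X) = 0 := by
      have e : ε • (1 : Module.End (ZMod p) X) * R * (ε • (1 : Module.End (ZMod p) X) * R) -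
          t' • (ε • (1 : Module.End (ZMod p) X) * R) + (-d) • (1 : Module.End (ZMod p) X) =
          (ε * ε) • (R * R) - (ε * t') • R - d • (1 : Module.End (ZMod p) X) := by
        simp only [smul_mul_assoc, one_mul, mul_smul_comm, smul_smul, neg_smul]
        rw [mul_comm t' ε]
        abel
      rw [e, hε, one_smul] at h2'
      exact h2'
    have h4 : (t - ε * t') • R = (2 * d) • (1 : Module.End (ZMod p) X) := by
      have e : (t - ε * t') • R - (2 * d) • (1 : Module.End (ZMod p) X) =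
          (R * R - (ε * t') • R - d • (1 : Module.End (ZMod p) X)) -
            (R * R - t • R + d • (1 : Module.End (ZMod p) X)) := by
        rw [sub_smul, two_mul, add_smul]
        abel
      rw [h3, h1, sub_zero] at e
      exact sub_eq_zero.1 e
    have h5 : t - ε * t' ≠ 0 := by
      intro h0
      rw [h0, zero_smul] at h4
      have := I3_smul_one_inj (k := ZMod p) (X := X) (a := 0) (b := 2 * d) (by rw [zero_smul, ← h4])
      exact mul_ne_zero h2 hd0 this.symm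
    refine ⟨Units.mk0 ((t - ε * t')⁻¹ * (2 * d)) (mul_ne_zero (inv_ne_zero h5)
      (mul_ne_zero h2 hd0)), ?_⟩
    rw [Units.val_mk0, mul_smul, ← h4, smul_smul, inv_mul_cancel₀ h5, one_smul]
  choose ν hν using hscal
  have hνmul : ∀ g h, ν (g * h) = ν g * ν h := by
    intro g h
    apply Units.ext
    apply I3_smul_one_inj (k := ZMod p) (X := X)
    rw [← hν, map_mul, hν g, hν h, smul_mul_smul_comm, mul_one, Units.val_mul]
  have hν1 : ν 1 = 1 := by
    apply Units.ext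
    apply I3_smul_one_inj (k := ZMod p) (X := X)
    rw [← hν, map_one, Units.val_one, one_smul]
  let νh : G →* (ZMod p)ˣ := { toFun := ν, map_one' := hν1, map_mul' := hνmul }
  -- the twist
  let ρ' : G →* Module.End (ZMod p) V :=
    { toFun := fun g => (((ν g)⁻¹ : (ZMod p)ˣ) : ZMod p) • ρ g
      map_one' := by rw [hν1, inv_one, Units.val_one, one_smul, map_one]
      map_mul' := fun g h => by
        rw [hνmul, mul_inv, Units.val_mul, map_mul, smul_mul_smul_comm] }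
  have hρ' : ∀ g, ρ' g = (((ν g)⁻¹ : (ZMod p)ˣ) : ZMod p) • ρ g := fun g => rfl
  let ω' : G →* (ZMod p)ˣ := ω * νh⁻¹ * νh⁻¹
  have hω' : ∀ g, ω' g = ω g * (ν g)⁻¹ * (ν g)⁻¹ := fun g => rfl
  refine NE_group ρ' ω' ?_ hdim ?_ c ?_
  · intro N hN
    apply hV N
    intro g x hx
    have h1 := N.smul_mem ((ν g : (ZMod p)ˣ) : ZMod p) (hN g x hx)
    rw [hρ', LinearMap.smul_apply, smul_smul, ← Units.val_mul, mul_inv_cancel, Units.val_one,
      one_smul] at h1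
    exact h1
  · intro g
    obtain ⟨t, h1, h2'⟩ := hQ g
    set n : ZMod p := ((ν g : (ZMod p)ˣ) : ZMod p) with hn
    set d : ZMod p := ((ω g : (ZMod p)ˣ) : ZMod p) with hd
    have hn0 : n ≠ 0 := (ν g).ne_zero
    have hni : (((ν g)⁻¹ : (ZMod p)ˣ) : ZMod p) = n⁻¹ := by rw [Units.val_inv_eq_inv_val]
    have h3 : n * n - t * n + d = 0 := by
      apply I3_smul_one_inj (k := ZMod p) (X := X)
      rw [zero_smul, ← h2', hν g, smul_mul_smul_comm, mul_one, smul_smul, add_smul, sub_smul]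
    have ht : t = n + d * n⁻¹ := by
      field_simp
      linear_combination -h3
    rw [hρ', hω', Units.val_mul, Units.val_mul, hni, ← hd]
    have e : (n⁻¹ • ρ g - 1) * (n⁻¹ • ρ g - (d * n⁻¹ * n⁻¹) • (1 : Module.End (ZMod p) V)) =
        (n⁻¹ * n⁻¹) • (ρ g * ρ g - t • ρ g + d • (1 : Module.End (ZMod p) V)) := by
      rw [ht]
      simp only [sub_mul, mul_sub, one_mul, mul_one, smul_mul_assoc, mul_smul_comm, smul_sub,
        smul_add, smul_smul, add_smul]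
      have e1 : n⁻¹ * n⁻¹ * n = n⁻¹ := by field_simp
      have e2 : d * n⁻¹ * n⁻¹ * n⁻¹ = n⁻¹ * n⁻¹ * (d * n⁻¹) := by ring
      have e3 : n⁻¹ * n⁻¹ * d = d * n⁻¹ * n⁻¹ := by ring
      rw [e1, e2, e3]
      abel
    rw [e, h1, smul_zero]
  · intro h
    have h1 : ((ω' c : (ZMod p)ˣ) : ZMod p) = 1 := by rw [h, Units.val_one]
    have hνc : ((ν c : (ZMod p)ˣ) : ZMod p) = ε := by
      apply I3_smul_one_inj (k := ZMod p) (X := X)
      rw [← hν, hc]
    rw [hω', Units.val_mul, Units.val_mul, hωc, Units.val_inv_eq_inv_val, hνc] at h1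
    have hε0 : ε ≠ 0 := by
      rintro rfl
      rw [mul_zero] at hε
      exact zero_ne_one hε
    have h3 : (-1 : ZMod p) = ε * ε := by
      field_simp at h1
      linear_combination h1
    rw [hε] at h3
    apply h2
    linear_combination -h3

/-- **(I3)** complex conjugation is not a scalar on `X` -/
theorem conj_not_scalar {p : ℕ} [Fact p.Prime] (hp2 : p ≠ 2)
    {V : Type} [AddCommGroup V] [Module (ZMod p) V]
    (ρ : GQ →* Module.End (ZMod p) V) (hlev : GaloisFactorsThroughFiniteLevel ρ)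
    (hV : ∀ N : Submodule (ZMod p) V, (∀ g, ∀ x ∈ N, ρ g x ∈ N) → N = ⊥ ∨ N = ⊤)
    (hdim : Module.finrank (ZMod p) V = 2)
    {X : Type} [AddCommGroup X] [Module (ZMod p) X] [Nontrivial X]
    (r : GQ →* Module.End (ZMod p) X) (hlevX : GaloisFactorsThroughFiniteLevel r)
    (D : ℕ) (hD : D ≠ 0) (a : ℕ → ZMod p)
    (hquad : ∀ ℓ : ℕ, ℓ.Prime → ¬ ℓ ∣ D → ∀ 𝔄 : ValuationSubring Qb, 𝔄.LiesOverPrime ℓ →
      ∀ σ : GQ, 𝔄.IsFrobeniusAt σ ℓ →
        ρ σ * ρ σ - a ℓ • ρ σ + (ℓ : ZMod p) • (1 : Module.End (ZMod p) V) = 0)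
    (hquadX : ∀ ℓ : ℕ, ℓ.Prime → ¬ ℓ ∣ D → ∀ 𝔄 : ValuationSubring Qb, 𝔄.LiesOverPrime ℓ →
      ∀ σ : GQ, 𝔄.IsFrobeniusAt σ ℓ →
        r σ * r σ - a ℓ • r σ + (ℓ : ZMod p) • (1 : Module.End (ZMod p) X) = 0)
    (ε : ZMod p) (hc : r complexConjugation = ε • (1 : Module.End (ZMod p) X)) : False := by
  have hp : p.Prime := Fact.out
  obtain ⟨ζ, hζ⟩ := HasEnoughRootsOfUnity.exists_primitiveRoot Qb p
  obtain ⟨ω, ⟨Lω, hLω, hω1⟩, hωF, -, hωc⟩ := exists_cyclo_zeta p hζ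
  obtain ⟨Lρ, hLρ, hρ1⟩ := hlev
  obtain ⟨Lr, hLr, hr1⟩ := hlevX
  have hLfin0 : FiniteDimensional ℚ (Lρ ⊔ Lr : IntermediateField ℚ Qb) :=
    IntermediateField.finiteDimensional_sup Lρ Lr
  have hLfin : FiniteDimensional ℚ (Lρ ⊔ Lr ⊔ Lω : IntermediateField ℚ Qb) :=
    IntermediateField.finiteDimensional_sup _ Lω
  have hL1 : ∀ σ : GQ, (∀ x ∈ (Lρ ⊔ Lr ⊔ Lω : IntermediateField ℚ Qb), σ x = x) →
      (ρ σ = 1 ∧ r σ = 1) ∧ ω σ = 1 := fun σ hσ =>
    ⟨⟨hρ1 σ fun x hx => hσ x ((le_sup_left : Lρ ⊔ Lr ≤ Lρ ⊔ Lr ⊔ Lω)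
        ((le_sup_left : Lρ ≤ Lρ ⊔ Lr) hx)),
      hr1 σ fun x hx => hσ x ((le_sup_left : Lρ ⊔ Lr ≤ Lρ ⊔ Lr ⊔ Lω)
        ((le_sup_right : Lr ≤ Lρ ⊔ Lr) hx))⟩,
      hω1 σ fun x hx => hσ x ((le_sup_right : Lω ≤ Lρ ⊔ Lr ⊔ Lω) hx)⟩
  set U : Subgroup GQ := ((ρ.toHomUnits.prod r.toHomUnits).prod ω).ker with hUdef
  have hUmem : ∀ σ : GQ, σ ∈ U ↔ (ρ σ = 1 ∧ r σ = 1) ∧ ω σ = 1 := by
    intro σ
    rw [hUdef, MonoidHom.mem_ker, MonoidHom.prod_apply, Prod.mk_eq_one, MonoidHom.prod_apply,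
      Prod.mk_eq_one, Units.ext_iff, Units.ext_iff]
    simp
  have hUn : U.Normal := MonoidHom.normal_ker _
  have hUo : IsOpen (U : Set GQ) := by
    refine Subgroup.isOpen_mono (H₁ := (Lρ ⊔ Lr ⊔ Lω : IntermediateField ℚ Qb).fixingSubgroup) ?_
      (IntermediateField.fixingSubgroup_isOpen _)
    intro σ hσ
    rw [hUmem]
    apply hL1
    intro x hx
    exact (IntermediateField.mem_fixingSubgroup_iff _ σ).1 hσ x hx
  refine I3_group hp2 ρ hV hdim r ω ?_ complexConjugation complexConjugation_mul_self hωc ε hc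
  intro g
  obtain ⟨ℓ, A, τ, n, -, hℓ, hℓS, hA, hτ, hg, -⟩ :=
    Fermat.Agent.ChebLib.weak_chebotarev U hUo hUn g (D * p).primeFactors
  have hℓDp : ¬ ℓ ∣ D * p := fun h =>
    hℓS (Nat.mem_primeFactors.2 ⟨hℓ, h, mul_ne_zero hD hp.ne_zero⟩)
  have hℓD : ¬ ℓ ∣ D := fun h => hℓDp (h.mul_right p)
  have hℓp : ℓ ≠ p := fun h => hℓDp (h ▸ dvd_mul_left _ _)
  obtain ⟨⟨h1, h1'⟩, h2⟩ := (hUmem _).1 hg
  have e1 : ρ g = ρ τ ^ n := by
    calc ρ g = ρ g * ρ (g⁻¹ * τ ^ n) := by rw [h1, mul_one]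
      _ = ρ τ ^ n := by rw [← map_mul, mul_inv_cancel_left, map_pow]
  have e1' : r g = r τ ^ n := by
    calc r g = r g * r (g⁻¹ * τ ^ n) := by rw [h1', mul_one]
      _ = r τ ^ n := by rw [← map_mul, mul_inv_cancel_left, map_pow]
  have e2 : ω g = ω τ ^ n := by
    calc ω g = ω g * ω (g⁻¹ * τ ^ n) := by rw [h2, mul_one]
      _ = ω τ ^ n := by rw [← map_mul, mul_inv_cancel_left, map_pow]
  refine ⟨Fermat.Agent.S31Lib.newton (a ℓ) (ℓ : ZMod p) n, ?_, ?_⟩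
  · rw [e1, e2, Units.val_pow_eq_pow_val, hωF ℓ hℓ hℓp A hA τ hτ]
    exact Fermat.Agent.S58Lib.quadratic_pow_newton _ _ _ (hquad ℓ hℓ hℓD A hA τ hτ) n
  · rw [e1', e2, Units.val_pow_eq_pow_val, hωF ℓ hℓ hℓp A hA τ hτ]
    exact Fermat.Agent.S58Lib.quadratic_pow_newton _ _ _ (hquadX ℓ hℓ hℓD A hA τ hτ) n

end Fermat.Agent.S41Lib
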