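import Fermat.Agent.ES.RtHecke
import Fermat.Agent.S36.NrmDefs

/-!
# S41, block I (Ihara), (I2a): change of level for `Rt`

* `Rt.up`   : `Rt N m f φ → Rt N' m (aHom f) (φ ∘ incl)`       (`N ∣ N'`)
* `Rt.upB`  : `Rt N m f φ → Rt N' m (bHom d f) (φ ∘ Ad diag(d,1))`  (`N * d ∣ N'`)
-/

set_option autoImplicit false
set_option synthInstance.maxHeartbeats 400000

open AlgebraicCurve ModularCurve CongruenceSubgroup UpperHalfPlane ModularForm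
open scoped MatrixGroups Manifold

namespace Fermat.Agent.S41Lib

open Fermat.Agent.S18Lib Fermat.Agent.S20Lib Fermat.Agent.S24Lib Fermat.Agent.S28Lib
  Fermat.Agent.ESLib Fermat.Agent.S36Lib Fermat.Agent.LevelRaise

noncomputable section

theorem RL_bdd (k : ℤ) {d : ℕ} (hd : d ≠ 0) {u : ℍ → ℂ}
    (hb : ∀ g : SL(2, ℤ), IsBoundedAtImInfty (u ∣[k] g)) (g : SL(2, ℤ)) :
    IsBoundedAtImInfty ((raise d u) ∣[k] g) := by
  obtain ⟨A, D, B, γ', hAD, -, h⟩ := exists_decomp d hd g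
  have hA0 : A ≠ 0 := by rintro rfl; simp at hAD; exact hd hAD.symm
  have hD0 : D ≠ 0 := by rintro rfl; simp at hAD; exact hd hAD.symm
  have e : (raise d u) ∣[k] g = ((d : ℂ) ^ (k - 1))⁻¹ • ((u ∣[k] γ') ∣[k] triMat A D B) := by
    rw [raise_eq k hd, SL_smul_slash, SL_slash, ← SlashAction.slash_mul, h,
      SlashAction.slash_mul, ← SL_slash]
  have e2 : (u ∣[k] γ') ∣[k] triMat A D B =
      (((A : ℂ) * D) ^ (k - 1) * (D : ℂ) ^ (-k)) • (fun τ : ℍ => (u ∣[k] γ') (triMat A D B • τ)) := by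
    funext τ
    rw [slash_triMat_apply k hA0 hD0]
    rfl
  have h1 : IsBoundedAtImInfty (fun τ : ℍ => (u ∣[k] γ') (triMat A D B • τ)) :=
    Asymptotics.IsBigO.comp_tendsto (hb γ') (tendsto_triMat_smul hA0 hD0 B)
  rw [e, e2]
  exact (h1.const_smul_left _).const_smul_left _

theorem RL_inv (k : ℤ) {d : ℕ} (hd : d ≠ 0) {u : ℍ → ℂ} (γ' γ : SL(2, ℤ)) (c : ℂ)
    (h : heckeDiagMatrix d * (γ' : GL (Fin 2) ℝ) = (γ : GL (Fin 2) ℝ) * heckeDiagMatrix d)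
    (hu : u ∣[k] γ = c • u) : (raise d u) ∣[k] γ' = c • raise d u := by
  have e : (c • u) ∣[k] heckeDiagMatrix d = c • (u ∣[k] heckeDiagMatrix d) := by
    funext τ
    rw [slash_heckeDiagMatrix_apply k hd, Pi.smul_apply, Pi.smul_apply,
      slash_heckeDiagMatrix_apply k hd, smul_eq_mul, smul_eq_mul]
    ring
  rw [raise_eq k hd, SL_smul_slash, SL_slash, ← SlashAction.slash_mul, h, SlashAction.slash_mul,
    ← SL_slash, hu, e, smul_comm]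

/-- (I2a-1) the inclusion `Γ₀(N') ⊆ Γ₀(N)` -/
theorem RL_up {N N' m : ℕ} [NeZero N] [NeZero N'] (h : N ∣ N') {f : FB N}
    {φ : Additive (Gamma0 N) →+ ℤ} (hf : Rt N m f φ) (φ' : Additive (Gamma0 N') →+ ℤ)
    (hφ' : ∀ (γ' : Gamma0 N') (γ : Gamma0 N), (γ' : SL(2, ℤ)) = (γ : SL(2, ℤ)) →
      φ' (Additive.ofMul γ') = φ (Additive.ofMul γ)) :
    Rt N' m (aHom h f) φ' := by
  obtain ⟨k, u, v, hu, hv, hu0, hv0, e⟩ := hf
  have hle : ∀ γ : SL(2, ℤ), γ ∈ Gamma0 N' → γ ∈ Gamma0 N := by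
    intro γ hγ
    rw [Gamma0_mem, ZMod.intCast_zmod_eq_zero_iff_dvd] at hγ ⊢
    exact (Int.natCast_dvd_natCast.2 h).trans hγ
  refine ⟨k, u, v, ⟨hu.holo, fun γ' => ?_, hu.bdd⟩,
    ⟨hv.holo, fun γ hγ => hv.inv γ (hle γ hγ), hv.bdd⟩, hu0, hv0, by rw [coe_aHom]; exact e⟩
  have h1 := hu.inv ⟨γ', hle _ γ'.2⟩
  have h2 : chr m φ' γ' = chr m φ ⟨γ', hle _ γ'.2⟩ := by
    unfold chr
    rw [hφ' γ' ⟨γ', hle _ γ'.2⟩ rfl]
  rw [h2]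
  exact h1

/-- the conjugate `diag(d,1) γ' diag(d,1)⁻¹` -/
theorem RL_exists_conj {N N' d : ℕ} [NeZero d] (h : N * d ∣ N') (γ' : Gamma0 N') :
    ∃ γ : Gamma0 N, (γ : SL(2, ℤ)) 0 0 = (γ' : SL(2, ℤ)) 0 0 ∧
      (γ : SL(2, ℤ)) 0 1 = d * (γ' : SL(2, ℤ)) 0 1 ∧
      d * (γ : SL(2, ℤ)) 1 0 = (γ' : SL(2, ℤ)) 1 0 ∧ (γ : SL(2, ℤ)) 1 1 = (γ' : SL(2, ℤ)) 1 1 := by
  have hγ := γ'.2
  rw [Gamma0_mem, ZMod.intCast_zmod_eq_zero_iff_dvd] at hγ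
  obtain ⟨c, hc⟩ : ((N * d : ℕ) : ℤ) ∣ (γ' : SL(2, ℤ)) 1 0 := (Int.natCast_dvd_natCast.2 h).trans hγ
  have hdet := (γ' : SL(2, ℤ)).det_coe
  rw [Matrix.det_fin_two] at hdet
  refine ⟨⟨⟨!![(γ' : SL(2, ℤ)) 0 0, d * (γ' : SL(2, ℤ)) 0 1; N * c, (γ' : SL(2, ℤ)) 1 1], ?_⟩, ?_⟩,
    rfl, rfl, ?_, rfl⟩
  · rw [Matrix.det_fin_two_of]
    rw [hc] at hdet
    push_cast at hdet
    linear_combination hdet
  · rw [Gamma0_mem, ZMod.intCast_zmod_eq_zero_iff_dvd]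
    exact Dvd.intro _ rfl
  · show (d : ℤ) * (N * c) = _
    rw [hc]
    push_cast
    ring

theorem RL_conj_eq {d : ℕ} (hd : d ≠ 0) (γ' γ : SL(2, ℤ)) (h00 : γ 0 0 = γ' 0 0)
    (h01 : γ 0 1 = d * γ' 0 1) (h10 : d * γ 1 0 = γ' 1 0) (h11 : γ 1 1 = γ' 1 1) :
    heckeDiagMatrix d * (γ' : GL (Fin 2) ℝ) = (γ : GL (Fin 2) ℝ) * heckeDiagMatrix d := by
  apply Units.ext
  rw [Units.val_mul, Units.val_mul, val_heckeDiagMatrix hd]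
  ext i j
  fin_cases i <;> fin_cases j
  · simp [Matrix.mul_apply, Fin.sum_univ_two, h00]
    ring
  · simp [Matrix.mul_apply, Fin.sum_univ_two, h01]
  · simp [Matrix.mul_apply, Fin.sum_univ_two, ← h10]
    ring
  · simp [Matrix.mul_apply, Fin.sum_univ_two, h11]

theorem RL_isMFc {N N' d m : ℕ} [NeZero d] (h : N * d ∣ N') {k : ℤ}
    {φ : Additive (Gamma0 N) →+ ℤ} {u : ℍ → ℂ} (hu : IsMFc N k (chr m φ) u)
    (φ' : Additive (Gamma0 N') →+ ℤ)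
    (hφ' : ∀ (γ' : Gamma0 N') (γ : Gamma0 N), (γ : SL(2, ℤ)) 0 0 = (γ' : SL(2, ℤ)) 0 0 →
      (γ : SL(2, ℤ)) 0 1 = d * (γ' : SL(2, ℤ)) 0 1 →
      d * (γ : SL(2, ℤ)) 1 0 = (γ' : SL(2, ℤ)) 1 0 → (γ : SL(2, ℤ)) 1 1 = (γ' : SL(2, ℤ)) 1 1 →
      φ' (Additive.ofMul γ') = φ (Additive.ofMul γ)) :
    IsMFc N' k (chr m φ') (raise d u) where
  holo := raise_mdiff (NeZero.ne d) hu.holo
  inv γ' := by
    obtain ⟨γ, h00, h01, h10, h11⟩ := RL_exists_conj h γ'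
    have h2 : chr m φ' γ' = chr m φ γ := by
      unfold chr
      rw [hφ' γ' γ h00 h01 h10 h11]
    rw [h2]
    exact RL_inv k (NeZero.ne d) _ _ _ (RL_conj_eq (NeZero.ne d) _ _ h00 h01 h10 h11) (hu.inv γ)
  bdd := RL_bdd k (NeZero.ne d) hu.bdd

theorem RL_qL_raise (d : ℕ) [NeZero d] {u : ℍ → ℂ} (hu : QI ⊤ 1 u) :
    qL (raise d u) = qExpand ℂ d (qL u) := by
  have e : raise d u = fun τ => u (utr d 0 1 τ) := by
    funext τ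
    rw [TranslateAux.utr_eq_heckeDiag (NeZero.ne d), raise_apply]
  rw [e, qL, qL, qExpansion_dilate hu (NeZero.ne d), hd_qExpand]

/-- (I2a-2) the conjugation by `diag(d,1)` -/
theorem RL_upB {N N' m d : ℕ} [NeZero N] [NeZero N'] [NeZero d] (h : N * d ∣ N') {f : FB N}
    {φ : Additive (Gamma0 N) →+ ℤ} (hφ : φ ∈ EP N ℤ) (hf : Rt N m f φ)
    (φ' : Additive (Gamma0 N') →+ ℤ)
    (hφ' : ∀ (γ' : Gamma0 N') (γ : Gamma0 N), (γ : SL(2, ℤ)) 0 0 = (γ' : SL(2, ℤ)) 0 0 →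
      (γ : SL(2, ℤ)) 0 1 = d * (γ' : SL(2, ℤ)) 0 1 →
      d * (γ : SL(2, ℤ)) 1 0 = (γ' : SL(2, ℤ)) 1 0 → (γ : SL(2, ℤ)) 1 1 = (γ' : SL(2, ℤ)) 1 1 →
      φ' (Additive.ofMul γ') = φ (Additive.ofMul γ)) :
    Rt N' m (bHom d h f) φ' := by
  obtain ⟨k, u, v, hu, hv, hu0, hv0, e⟩ := hf
  have hv' : IsMFc N k (chr m (0 : Additive (Gamma0 N) →+ ℤ)) v := hg_isMFc_zero_iff.2 hv
  have qu : QI ⊤ 1 u := hu.qi hφ
  have qv : QI ⊤ 1 v := hv'.qi (zero_mem _)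
  have hU := RL_isMFc h hu φ' hφ'
  have hV : IsMF (Gamma0 N') k (raise d v) :=
    hg_isMFc_zero_iff.1 (RL_isMFc (m := m) h hv' 0 (fun _ _ _ _ _ _ => rfl))
  have hinj : Function.Injective (qExpand ℂ d) := (qExpand ℂ d).injective
  have hne : ∀ w : ℍ → ℂ, QI ⊤ 1 w → w ≠ 0 → raise d w ≠ 0 := by
    intro w qw hw h0
    have h1 := RL_qL_raise d qw
    rw [h0] at h1
    have h2 : qL (0 : ℍ → ℂ) = 0 := by
      rw [qL, qExpansion_zero, map_zero]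
    rw [h2] at h1
    exact hg_qL_ne_zero qw hw (hinj (by rw [← h1, map_zero]))
  refine ⟨k, raise d u, raise d v, hU, hV, hne u qu hu0, hne v qv hv0, ?_⟩
  rw [coe_bHom, coeffMap_qExpand'', RL_qL_raise d qu, RL_qL_raise d qv, ← map_pow, ← map_pow,
    ← map_mul, e]

end

end Fermat.Agent.S41Lib
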