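import Fermat.Agent.S41.Ihara.ConjScalar
import Fermat.Agent.ES.TrunkCore
import Fermat.Prelude.Def_ModularCurve_PeriodHomPair

/-!
# S41, block I (Ihara at `λ`): the Galois module `K = ker(a) ∩ (λ-eigenspace)²` and `ihara_abs`

`IHHyp` bundles the outputs of (I1) SIGN, (I2a) `Rt` level change, (I2b) `Rt` complex conjugation.
`ihara_abs`: a pair `(φ₁, φ₂)` of `λ`-eigenvectors of `EP N ℤ` mod `p` with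
`φ₁ ∘ ι₁ + φ₂ ∘ ι₂ ≡ 0` is `≡ 0`, if `λ` is the system of a simple two dimensional module `V`.
-/

set_option autoImplicit false
set_option synthInstance.maxHeartbeats 400000
set_option linter.unusedSectionVars false

open AlgebraicCurve ModularCurve CongruenceSubgroup ModularCurve.Period
open scoped MatrixGroups

namespace Fermat.Agent.S41Lib

open Fermat.Agent.S18Lib Fermat.Agent.S20Lib Fermat.Agent.S24Lib Fermat.Agent.ESLib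
open Matrix

/-- the outputs of (I1), (I2a), (I2b) -/
structure IHHyp (N N' p : ℕ) [NeZero N] [NeZero N'] (ι₁ ι₂ : Gamma0 N' →* Gamma0 N)
    (A₁ A₂ : FB N →+* FB N') : Prop where
  ep₁ : ∀ φ : Additive (Gamma0 N) →+ ℤ, φ ∈ EP N ℤ → φ.comp (MonoidHom.toAdditive ι₁) ∈ EP N' ℤ
  ep₂ : ∀ φ : Additive (Gamma0 N) →+ ℤ, φ ∈ EP N ℤ → φ.comp (MonoidHom.toAdditive ι₂) ∈ EP N' ℤ
  rt₁ : ∀ (f : FB N) (φ : Additive (Gamma0 N) →+ ℤ), φ ∈ EP N ℤ → Rt N p f φ →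
    Rt N' p (A₁ f) (φ.comp (MonoidHom.toAdditive ι₁))
  rt₂ : ∀ (f : FB N) (φ : Additive (Gamma0 N) →+ ℤ), φ ∈ EP N ℤ → Rt N p f φ →
    Rt N' p (A₂ f) (φ.comp (MonoidHom.toAdditive ι₂))
  gal₁ : ∀ (σ : GQ) (f : FB N), gal N' σ (A₁ f) = A₁ (gal N σ f)
  gal₂ : ∀ (σ : GQ) (f : FB N), gal N' σ (A₂ f) = A₂ (gal N σ f)
  sign : ∀ φ₁ φ₂ : Additive (Gamma0 N) →+ ℤ, φ₁ ∈ EP N ℤ → φ₂ ∈ EP N ℤ →
    (∀ g : Gamma0 N', (p : ℤ) ∣ φ₁ (Additive.ofMul (ι₁ g)) + φ₂ (Additive.ofMul (ι₂ g))) →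
    ∀ g : Gamma0 N, (p : ℤ) ∣ φ₁ (Additive.ofMul (jConjGamma0 N g)) - φ₁ (Additive.ofMul g) ∧
      (p : ℤ) ∣ φ₂ (Additive.ofMul (jConjGamma0 N g)) - φ₂ (Additive.ofMul g)
  conj : ∀ (f : FB N) (φ : Additive (Gamma0 N) →+ ℤ), φ ∈ EP N ℤ → Rt N p f φ →
    Rt N p (gal N complexConjugation f) (-(φ.comp (MonoidHom.toAdditive (jConjGamma0 N))))

theorem IH_comp_jConj_mem {N : ℕ} (φ : Additive (Gamma0 N) →+ ℤ) (hφ : φ ∈ EP N ℤ) :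
    φ.comp (MonoidHom.toAdditive (jConjGamma0 N)) ∈ EP N ℤ := by
  intro γ hγ
  apply hφ (jConjGamma0 N γ)
  rw [jConjGamma0_coe, jConjSL_coe, jConjMat_trace]
  exact hγ

section

variable {N N' p : ℕ} [NeZero N] [NeZero N'] [hpF : Fact p.Prime]
  {r : ℕ} (b : Module.Basis (Fin r) ℤ (EP N ℤ)) (Θ₀ : TT0 N →+* Module.End ℤ (EP N ℤ))
  (ι₁ ι₂ : Gamma0 N' →* Gamma0 N) (D : ℕ) (a : ℕ → ZMod p)

/-- `λ`-eigenvectors of `L / p` -/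
def IHEig (v : Fin r → ZMod p) : Prop :=
  ∀ (ℓ : ℕ) (hℓ : ℓ.Prime) (hℓN : ¬ ℓ ∣ N), ¬ ℓ ∣ D →
    ((P.ThM b Θ₀ (CuspForm.heckeAlgebra.T hℓ hℓN hℓN)).map (Int.castRingHom (ZMod p))) *ᵥ v =
      a ℓ • v

/-- the kernel of `a = (∘ ι₁) + (∘ ι₂)` on `(L / p)²` -/
def IHKer (v₁ v₂ : Fin r → ZMod p) : Prop :=
  ∃ φ₁ φ₂ : EP N ℤ, P.crd b p φ₁ = v₁ ∧ P.crd b p φ₂ = v₂ ∧
    ∀ g : Gamma0 N', (p : ℤ) ∣ (φ₁ : Additive (Gamma0 N) →+ ℤ) (Additive.ofMul (ι₁ g)) +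
      (φ₂ : Additive (Gamma0 N) →+ ℤ) (Additive.ofMul (ι₂ g))

theorem IH_crd_zsmul (n : ℤ) (φ : EP N ℤ) :
    P.crd b p (n • φ) = (n : ZMod p) • P.crd b p φ := by
  rw [map_zsmul, Int.cast_smul_eq_zsmul]

/-- the module `K` -/
def IHK : Submodule (ZMod p) ((Fin r → ZMod p) × (Fin r → ZMod p)) where
  carrier := {x | IHEig b Θ₀ D a x.1 ∧ IHEig b Θ₀ D a x.2 ∧ IHKer b ι₁ ι₂ x.1 x.2}
  zero_mem' := by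
    refine ⟨fun ℓ hℓ hℓN _ => ?_, fun ℓ hℓ hℓN _ => ?_, 0, 0, map_zero _, map_zero _,
      fun g => ?_⟩
    · show _ *ᵥ (0 : Fin r → ZMod p) = a ℓ • (0 : Fin r → ZMod p)
      rw [mulVec_zero, smul_zero]
    · show _ *ᵥ (0 : Fin r → ZMod p) = a ℓ • (0 : Fin r → ZMod p)
      rw [mulVec_zero, smul_zero]
    · exact ⟨0, by simp⟩
  add_mem' := by
    rintro ⟨x₁, x₂⟩ ⟨y₁, y₂⟩ ⟨hx1, hx2, φ₁, φ₂, h1, h2, h3⟩ ⟨hy1, hy2, ψ₁, ψ₂, k1, k2, k3⟩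
    refine ⟨fun ℓ hℓ hℓN hD => ?_, fun ℓ hℓ hℓN hD => ?_, φ₁ + ψ₁, φ₂ + ψ₂, ?_, ?_, fun g => ?_⟩
    · show _ *ᵥ (x₁ + y₁) = a ℓ • (x₁ + y₁)
      rw [mulVec_add, hx1 ℓ hℓ hℓN hD, hy1 ℓ hℓ hℓN hD, smul_add]
    · show _ *ᵥ (x₂ + y₂) = a ℓ • (x₂ + y₂)
      rw [mulVec_add, hx2 ℓ hℓ hℓN hD, hy2 ℓ hℓ hℓN hD, smul_add]
    · rw [map_add, h1, k1]
      rfl
    · rw [map_add, h2, k2]
      rfl
    · have := dvd_add (h3 g) (k3 g)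
      have e : ((φ₁ + ψ₁ : EP N ℤ) : Additive (Gamma0 N) →+ ℤ) (Additive.ofMul (ι₁ g)) +
          ((φ₂ + ψ₂ : EP N ℤ) : Additive (Gamma0 N) →+ ℤ) (Additive.ofMul (ι₂ g)) =
          (φ₁ : Additive (Gamma0 N) →+ ℤ) (Additive.ofMul (ι₁ g)) +
            (φ₂ : Additive (Gamma0 N) →+ ℤ) (Additive.ofMul (ι₂ g)) +
          ((ψ₁ : Additive (Gamma0 N) →+ ℤ) (Additive.ofMul (ι₁ g)) +
            (ψ₂ : Additive (Gamma0 N) →+ ℤ) (Additive.ofMul (ι₂ g))) := by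
        show (φ₁ : Additive (Gamma0 N) →+ ℤ) _ + (ψ₁ : Additive (Gamma0 N) →+ ℤ) _ +
          ((φ₂ : Additive (Gamma0 N) →+ ℤ) _ + (ψ₂ : Additive (Gamma0 N) →+ ℤ) _) = _
        ring
      rw [e]
      exact this
  smul_mem' := by
    rintro c ⟨x₁, x₂⟩ ⟨hx1, hx2, φ₁, φ₂, h1, h2, h3⟩
    obtain ⟨n, rfl⟩ := ZMod.intCast_surjective c
    refine ⟨fun ℓ hℓ hℓN hD => ?_, fun ℓ hℓ hℓN hD => ?_, n • φ₁, n • φ₂, ?_, ?_, fun g => ?_⟩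
    · show _ *ᵥ ((n : ZMod p) • x₁) = a ℓ • ((n : ZMod p) • x₁)
      rw [mulVec_smul, hx1 ℓ hℓ hℓN hD, smul_comm]
    · show _ *ᵥ ((n : ZMod p) • x₂) = a ℓ • ((n : ZMod p) • x₂)
      rw [mulVec_smul, hx2 ℓ hℓ hℓN hD, smul_comm]
    · rw [IH_crd_zsmul, h1]
      rfl
    · rw [IH_crd_zsmul, h2]
      rfl
    · have := Dvd.dvd.mul_left (h3 g) n
      have e : ((n • φ₁ : EP N ℤ) : Additive (Gamma0 N) →+ ℤ) (Additive.ofMul (ι₁ g)) +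
          ((n • φ₂ : EP N ℤ) : Additive (Gamma0 N) →+ ℤ) (Additive.ofMul (ι₂ g)) =
          n * ((φ₁ : Additive (Gamma0 N) →+ ℤ) (Additive.ofMul (ι₁ g)) +
            (φ₂ : Additive (Gamma0 N) →+ ℤ) (Additive.ofMul (ι₂ g))) := by
        show n • (φ₁ : Additive (Gamma0 N) →+ ℤ) _ + n • (φ₂ : Additive (Gamma0 N) →+ ℤ) _ = _
        rw [smul_eq_mul, smul_eq_mul]
        ring
      rw [e]
      exact this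

theorem mem_IHK {x : (Fin r → ZMod p) × (Fin r → ZMod p)} :
    x ∈ IHK b Θ₀ ι₁ ι₂ D a ↔
      IHEig b Θ₀ D a x.1 ∧ IHEig b Θ₀ D a x.2 ∧ IHKer b ι₁ ι₂ x.1 x.2 := Iff.rfl

end

section Act

variable {N N' p : ℕ} [NeZero N] [NeZero N'] [hpF : Fact p.Prime]
  {r : ℕ} {b : Module.Basis (Fin r) ℤ (EP N ℤ)} {Θ₀ : TT0 N →+* Module.End ℤ (EP N ℤ)}
  {ι₁ ι₂ : Gamma0 N' →* Gamma0 N} {A₁ A₂ : FB N →+* FB N'} {D : ℕ} {a : ℕ → ZMod p}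
  (H : TrunkHyp N) (H' : TrunkHyp N') (hΘ : P.IsThetaTr Θ₀) (hI : IHHyp N N' p ι₁ ι₂ A₁ A₂)

include hΘ in
theorem IHEig.gal (σ : GQ) {v : Fin r → ZMod p} (hv : IHEig b Θ₀ D a v) :
    IHEig b Θ₀ D a (P.rhoM b H hpF.out.pos σ *ᵥ v) := by
  intro ℓ hℓ hℓN hD
  rw [mulVec_mulVec, ← P.rhoM_comm_T H _ hΘ hℓ hℓN σ, ← mulVec_mulVec, hv ℓ hℓ hℓN hD, mulVec_smul]

include H in
theorem IH_rt_of_kap {f : FB N} {φ : EP N ℤ} (h : P.Kap b p f (P.crd b p φ)) :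
    Rt N p f (φ : Additive (Gamma0 N) →+ ℤ) := by
  obtain ⟨ψ, hψ, hc⟩ := h
  exact H.of_congr hψ ((P.crd_eq_iff b p ψ φ).1 hc)

include H H' hI in
theorem IHKer_iff_pow {f₁ f₂ : FB N} {v₁ v₂ : Fin r → ZMod p} (h₁ : P.Kap b p f₁ v₁)
    (h₂ : P.Kap b p f₂ v₂) : IHKer b ι₁ ι₂ v₁ v₂ ↔ ∃ g : FB N', A₁ f₁ * A₂ f₂ = g ^ p := by
  have hp := hpF.out.pos
  constructor
  · rintro ⟨φ₁, φ₂, rfl, rfl, hd⟩
    have r₁ := hI.rt₁ f₁ φ₁ φ₁.2 (IH_rt_of_kap H h₁)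
    have r₂ := hI.rt₂ f₂ φ₂ φ₂.2 (IH_rt_of_kap H h₂)
    have r₃ := H'.mul (hI.ep₁ _ φ₁.2) (hI.ep₂ _ φ₂.2) r₁ r₂
    apply H'.eq_pow hp
    apply H'.of_congr r₃
    intro γ
    rw [AddMonoidHom.zero_apply, sub_zero]
    exact hd (Additive.toMul γ)
  · rintro ⟨g, hg⟩
    have hf₁ := h₁.ne_zero H hp
    have hf₂ := h₂.ne_zero H hp
    obtain ⟨φ₁, k₁, rfl⟩ := h₁
    obtain ⟨φ₂, k₂, rfl⟩ := h₂
    refine ⟨φ₁, φ₂, rfl, rfl, fun γ => ?_⟩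
    have r₁ := hI.rt₁ f₁ φ₁ φ₁.2 k₁
    have r₂ := hI.rt₂ f₂ φ₂ φ₂.2 k₂
    have r₃ := H'.mul (hI.ep₁ _ φ₁.2) (hI.ep₂ _ φ₂.2) r₁ r₂
    have hg0 : g ≠ 0 := by
      rintro rfl
      rw [zero_pow hp.ne'] at hg
      rcases mul_eq_zero.1 hg with h | h
      · exact hf₁ ((map_eq_zero A₁).1 h)
      · exact hf₂ ((map_eq_zero A₂).1 h)
    rw [hg] at r₃
    have := H'.congr hp ((EP N' ℤ).add_mem (hI.ep₁ _ φ₁.2) (hI.ep₂ _ φ₂.2)) (EP N' ℤ).zero_mem r₃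
      (H'.pow_self p hg0) (Additive.ofMul γ)
    rw [AddMonoidHom.zero_apply, sub_zero] at this
    exact this

include H' hI in
theorem IHKer.gal (σ : GQ) {v₁ v₂ : Fin r → ZMod p} (hv : IHKer b ι₁ ι₂ v₁ v₂) :
    IHKer b ι₁ ι₂ (P.rhoM b H hpF.out.pos σ *ᵥ v₁) (P.rhoM b H hpF.out.pos σ *ᵥ v₂) := by
  have hp := hpF.out.pos
  obtain ⟨f₁, h₁⟩ := P.Kap.exists (b := b) H hp v₁
  obtain ⟨f₂, h₂⟩ := P.Kap.exists (b := b) H hp v₂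
  obtain ⟨g, hg⟩ := (IHKer_iff_pow H H' hI h₁ h₂).1 hv
  rw [IHKer_iff_pow H H' hI (P.rhoM_spec H hp σ h₁) (P.rhoM_spec H hp σ h₂)]
  refine ⟨ESLib.gal N' σ g, ?_⟩
  rw [← hI.gal₁, ← hI.gal₂, ← map_mul, hg, map_pow]

variable (b Θ₀ ι₁ ι₂ D a) in
/-- the diagonal action on `(L / p)²` -/
noncomputable def IHact (σ : GQ) : ((Fin r → ZMod p) × (Fin r → ZMod p)) →ₗ[ZMod p]
    ((Fin r → ZMod p) × (Fin r → ZMod p)) :=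
  LinearMap.prodMap (Matrix.toLin' (P.rhoM b H hpF.out.pos σ))
    (Matrix.toLin' (P.rhoM b H hpF.out.pos σ))

theorem IHact_apply (σ : GQ) (x : (Fin r → ZMod p) × (Fin r → ZMod p)) :
    IHact b H σ x = (P.rhoM b H hpF.out.pos σ *ᵥ x.1, P.rhoM b H hpF.out.pos σ *ᵥ x.2) := rfl

include H' hΘ hI in
theorem IHact_mem (σ : GQ) (x : (Fin r → ZMod p) × (Fin r → ZMod p))
    (hx : x ∈ IHK b Θ₀ ι₁ ι₂ D a) : IHact b H σ x ∈ IHK b Θ₀ ι₁ ι₂ D a :=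
  ⟨hx.1.gal H hΘ σ, hx.2.1.gal H hΘ σ, hx.2.2.gal H H' hI σ⟩

variable (b D a) in
/-- the representation of `G_ℚ` on `K` -/
noncomputable def IHr : GQ →* Module.End (ZMod p) (IHK b Θ₀ ι₁ ι₂ D a) where
  toFun σ := (IHact b H σ).restrict (IHact_mem H H' hΘ hI σ)
  map_one' := by
    apply LinearMap.ext
    intro x
    apply Subtype.ext
    show IHact b H 1 x.1 = x.1
    rw [IHact_apply, map_one, one_mulVec, one_mulVec]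
  map_mul' σ τ := by
    apply LinearMap.ext
    intro x
    apply Subtype.ext
    show IHact b H (σ * τ) x.1 = IHact b H σ (IHact b H τ x.1)
    rw [IHact_apply, IHact_apply, IHact_apply, map_mul, mulVec_mulVec, mulVec_mulVec]

theorem IHr_apply (σ : GQ) (x : IHK b Θ₀ ι₁ ι₂ D a) :
    ((IHr b D a H H' hΘ hI σ x : IHK b Θ₀ ι₁ ι₂ D a) : (Fin r → ZMod p) × (Fin r → ZMod p)) =
      (P.rhoM b H hpF.out.pos σ *ᵥ x.1.1, P.rhoM b H hpF.out.pos σ *ᵥ x.1.2) := rfl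

theorem IHr_level : GaloisFactorsThroughFiniteLevel (IHr b D a H H' hΘ hI) := by
  obtain ⟨L, hL, h1⟩ := P.rhoM_level (b := b) H hpF.out.pos
  refine ⟨L, hL, fun σ hσ => ?_⟩
  apply LinearMap.ext
  intro x
  apply Subtype.ext
  rw [IHr_apply, h1 σ hσ, one_mulVec, one_mulVec]
  rfl

theorem IHr_quad (hND : N ∣ D) (hpD : p ∣ D) (ℓ : ℕ) (hℓ : ℓ.Prime) (hℓD : ¬ ℓ ∣ D)
    (𝔄 : ValuationSubring Qb) (h𝔄 : 𝔄.LiesOverPrime ℓ) (σ : GQ) (hσ : 𝔄.IsFrobeniusAt σ ℓ) :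
    IHr b D a H H' hΘ hI σ * IHr b D a H H' hΘ hI σ - a ℓ • IHr b D a H H' hΘ hI σ +
      (ℓ : ZMod p) • (1 : Module.End (ZMod p) (IHK b Θ₀ ι₁ ι₂ D a)) = 0 := by
  have hℓN : ¬ ℓ ∣ N := fun h => hℓD (h.trans hND)
  have hℓp : ¬ ℓ ∣ p := fun h => hℓD (h.trans hpD)
  have hes := P.rhoM_es (b := b) H hpF.out.pos hΘ hℓ hℓN hℓp 𝔄 h𝔄 σ hσ
  have key : ∀ v : Fin r → ZMod p, IHEig b Θ₀ D a v →
      P.rhoM b H hpF.out.pos σ *ᵥ (P.rhoM b H hpF.out.pos σ *ᵥ v) -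
        a ℓ • (P.rhoM b H hpF.out.pos σ *ᵥ v) + (ℓ : ZMod p) • v = 0 := by
    intro v hv
    have h1 := congrArg (fun M => M *ᵥ v) hes
    simp only [add_mulVec, sub_mulVec, zero_mulVec, ← mulVec_mulVec, natCast_mulVec] at h1
    rw [(hv.gal H hΘ σ) ℓ hℓ hℓN hℓD] at h1
    exact h1
  apply LinearMap.ext
  intro x
  apply Subtype.ext
  have e : ((((IHr b D a H H' hΘ hI σ * IHr b D a H H' hΘ hI σ - a ℓ • IHr b D a H H' hΘ hI σ +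
      (ℓ : ZMod p) • (1 : Module.End (ZMod p) (IHK b Θ₀ ι₁ ι₂ D a))) x :
      IHK b Θ₀ ι₁ ι₂ D a)) : (Fin r → ZMod p) × (Fin r → ZMod p)) =
      (P.rhoM b H hpF.out.pos σ *ᵥ (P.rhoM b H hpF.out.pos σ *ᵥ x.1.1) -
        a ℓ • (P.rhoM b H hpF.out.pos σ *ᵥ x.1.1) + (ℓ : ZMod p) • x.1.1,
       P.rhoM b H hpF.out.pos σ *ᵥ (P.rhoM b H hpF.out.pos σ *ᵥ x.1.2) -
        a ℓ • (P.rhoM b H hpF.out.pos σ *ᵥ x.1.2) + (ℓ : ZMod p) • x.1.2) := rfl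
  rw [e, key _ x.2.1, key _ x.2.2.1]
  rfl

theorem IHr_conj :
    IHr b D a H H' hΘ hI complexConjugation =
      (-1 : ZMod p) • (1 : Module.End (ZMod p) (IHK b Θ₀ ι₁ ι₂ D a)) := by
  have hp := hpF.out.pos
  apply LinearMap.ext
  intro x
  apply Subtype.ext
  obtain ⟨φ₁, φ₂, h₁, h₂, hd⟩ := x.2.2.2
  have hs := hI.sign φ₁ φ₂ φ₁.2 φ₂.2 hd
  have key : ∀ φ : EP N ℤ, (∀ g : Gamma0 N, (p : ℤ) ∣
      (φ : Additive (Gamma0 N) →+ ℤ) (Additive.ofMul (jConjGamma0 N g)) -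
        (φ : Additive (Gamma0 N) →+ ℤ) (Additive.ofMul g)) →
      P.rhoM b H hp complexConjugation *ᵥ P.crd b p φ = -P.crd b p φ := by
    intro φ hφ
    obtain ⟨f, hf⟩ := P.Kap.exists (b := b) H hp (P.crd b p φ)
    have h1 := P.rhoM_spec H hp complexConjugation hf
    have h2 := hI.conj f φ φ.2 (IH_rt_of_kap H hf)
    set ψ : EP N ℤ := ⟨(φ : Additive (Gamma0 N) →+ ℤ).comp
      (MonoidHom.toAdditive (jConjGamma0 N)), IH_comp_jConj_mem _ φ.2⟩ with hψ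
    have h3 : P.Kap b p (ESLib.gal N complexConjugation f) (P.crd b p (-ψ)) := ⟨-ψ, h2, rfl⟩
    rw [h1.unique H hp h3, map_neg]
    congr 1
    rw [P.crd_eq_iff]
    intro γ
    exact hφ (Additive.toMul γ)
  rw [IHr_apply, ← h₁, ← h₂, key φ₁ (fun g => (hs g).1), key φ₂ (fun g => (hs g).2)]
  show _ = (-1 : ZMod p) • (x : (Fin r → ZMod p) × (Fin r → ZMod p))
  rw [neg_one_smul, h₁, h₂]
  rfl

end Act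

theorem IHEig_of_isTr {N p : ℕ} [NeZero N] [Fact p.Prime] {r : ℕ}
    (b : Module.Basis (Fin r) ℤ (EP N ℤ)) {Θ₀ : TT0 N →+* Module.End ℤ (EP N ℤ)}
    (hΘ : P.IsThetaTr Θ₀) (D : ℕ) (a : ℕ → ZMod p) (φ : EP N ℤ)
    (heig : ∀ (ℓ : ℕ) [NeZero ℓ], ℓ.Prime → ¬ ℓ ∣ D → ∀ φ' : Additive (Gamma0 N) →+ ℤ,
      IsTr N ℓ (φ : Additive (Gamma0 N) →+ ℤ) φ' →
        ∀ g, ((φ' g : ℤ) : ZMod p) = a ℓ * (((φ : Additive (Gamma0 N) →+ ℤ) g : ℤ) : ZMod p)) :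
    IHEig b Θ₀ D a (P.crd b p φ) := by
  intro ℓ hℓ hℓN hℓD
  have : NeZero ℓ := ⟨hℓ.ne_zero⟩
  obtain ⟨n, hn⟩ := ZMod.intCast_surjective (a ℓ)
  rw [← P.crd_theta, ← hn, ← IH_crd_zsmul, P.crd_eq_iff]
  intro γ
  rw [← ZMod.intCast_zmod_eq_zero_iff_dvd, Int.cast_sub,
    heig ℓ hℓ hℓD _ (hΘ ℓ hℓ hℓN φ) γ, ← hn]
  have e : ((n • φ : EP N ℤ) : Additive (Gamma0 N) →+ ℤ) γ =
      n * (φ : Additive (Gamma0 N) →+ ℤ) γ := by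
    show n • (φ : Additive (Gamma0 N) →+ ℤ) γ = _
    rw [smul_eq_mul]
  rw [e, Int.cast_mul, sub_self]

/-- **Ihara's lemma at `λ`**, from the outputs of (I1), (I2a), (I2b) -/
theorem ihara_abs {N N' p : ℕ} [NeZero N] [NeZero N'] [Fact p.Prime] (hp2 : p ≠ 2)
    (H : TrunkHyp N) (H' : TrunkHyp N')
    {ι₁ ι₂ : Gamma0 N' →* Gamma0 N} {A₁ A₂ : FB N →+* FB N'} (hI : IHHyp N N' p ι₁ ι₂ A₁ A₂)
    {V : Type} [AddCommGroup V] [Module (ZMod p) V]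
    (ρ : GQ →* Module.End (ZMod p) V) (hlev : GaloisFactorsThroughFiniteLevel ρ)
    (hV : ∀ W : Submodule (ZMod p) V, (∀ g, ∀ x ∈ W, ρ g x ∈ W) → W = ⊥ ∨ W = ⊤)
    (hdim : Module.finrank (ZMod p) V = 2)
    (D : ℕ) (hD : D ≠ 0) (hND : N ∣ D) (hpD : p ∣ D) (a : ℕ → ZMod p)
    (hquad : ∀ ℓ : ℕ, ℓ.Prime → ¬ ℓ ∣ D → ∀ 𝔄 : ValuationSubring Qb, 𝔄.LiesOverPrime ℓ →
      ∀ σ : GQ, 𝔄.IsFrobeniusAt σ ℓ →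
        ρ σ * ρ σ - a ℓ • ρ σ + (ℓ : ZMod p) • (1 : Module.End (ZMod p) V) = 0)
    (φ₁ φ₂ : Additive (Gamma0 N) →+ ℤ) (h₁ : φ₁ ∈ EP N ℤ) (h₂ : φ₂ ∈ EP N ℤ)
    (hker : ∀ g : Gamma0 N',
      (p : ℤ) ∣ φ₁ (Additive.ofMul (ι₁ g)) + φ₂ (Additive.ofMul (ι₂ g)))
    (heig₁ : ∀ (ℓ : ℕ) [NeZero ℓ], ℓ.Prime → ¬ ℓ ∣ D → ∀ φ' : Additive (Gamma0 N) →+ ℤ,
      IsTr N ℓ φ₁ φ' → ∀ g, ((φ' g : ℤ) : ZMod p) = a ℓ * ((φ₁ g : ℤ) : ZMod p))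
    (heig₂ : ∀ (ℓ : ℕ) [NeZero ℓ], ℓ.Prime → ¬ ℓ ∣ D → ∀ φ' : Additive (Gamma0 N) →+ ℤ,
      IsTr N ℓ φ₂ φ' → ∀ g, ((φ' g : ℤ) : ZMod p) = a ℓ * ((φ₂ g : ℤ) : ZMod p)) :
    (∀ g, (p : ℤ) ∣ φ₁ g) ∧ (∀ g, (p : ℤ) ∣ φ₂ g) := by
  obtain ⟨r, b, Θ₀, -, hΘ⟩ := H.theta
  have hΘ' : P.IsThetaTr Θ₀ := hΘ
  by_contra hcon
  have hx : ((P.crd b p ⟨φ₁, h₁⟩, P.crd b p ⟨φ₂, h₂⟩) :
      (Fin r → ZMod p) × (Fin r → ZMod p)) ∈ IHK b Θ₀ ι₁ ι₂ D a :=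
    ⟨IHEig_of_isTr b hΘ' D a ⟨φ₁, h₁⟩ heig₁, IHEig_of_isTr b hΘ' D a ⟨φ₂, h₂⟩ heig₂,
      ⟨φ₁, h₁⟩, ⟨φ₂, h₂⟩, rfl, rfl, hker⟩
  have hne : (⟨_, hx⟩ : IHK b Θ₀ ι₁ ι₂ D a) ≠ 0 := by
    intro h0
    apply hcon
    have h1 := congrArg Subtype.val h0
    have h2 : P.crd b p ⟨φ₁, h₁⟩ = 0 := congrArg Prod.fst h1
    have h3 : P.crd b p ⟨φ₂, h₂⟩ = 0 := congrArg Prod.snd h1
    exact ⟨(P.crd_eq_zero_iff b p _).1 h2, (P.crd_eq_zero_iff b p _).1 h3⟩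
  have : Nontrivial (IHK b Θ₀ ι₁ ι₂ D a) := ⟨⟨_, _, hne⟩⟩
  exact conj_not_scalar hp2 ρ hlev hV hdim (IHr b D a H H' hΘ' hI) (IHr_level H H' hΘ' hI) D hD a
    hquad (IHr_quad H H' hΘ' hI hND hpD) (-1) (IHr_conj H H' hΘ' hI)

end Fermat.Agent.S41Lib
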