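import Mathlib

/-!
# S41, block I (Ihara), (SIGN): the arithmetic core

A function `s (c, d)` on the bottom rows of `Γ₀(N)` which is invariant under `d ↦ d + x c`,
`c ↦ c + N y d`, `(c, d) ↦ (-c, -d)` and `c ↦ q² c` is invariant under `c ↦ -c`
(Dirichlet + quadratic reciprocity + Euler's criterion).
-/

set_option autoImplicit false

namespace Fermat.Agent.S41Lib

/-- the rules satisfied by `s (c, d) = χ [[*, *], [c, d]]` -/
structure SignRules {C : Type*} (N q : ℕ) (s : ℤ → ℤ → C) : Prop where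
  R1 : ∀ c d x : ℤ, (N : ℤ) ∣ c → IsCoprime c d → s c (d + x * c) = s c d
  R2 : ∀ c d y : ℤ, (N : ℤ) ∣ c → IsCoprime c d → s (c + N * y * d) d = s c d
  R3 : ∀ c d : ℤ, (N : ℤ) ∣ c → IsCoprime c d → s (-c) (-d) = s c d
  R4 : ∀ c d : ℤ, (N : ℤ) ∣ c → IsCoprime ((q : ℤ) ^ 2 * c) d → s ((q : ℤ) ^ 2 * c) d = s c d

variable {C : Type*} {N q : ℕ} {s : ℤ → ℤ → C}

theorem SG_iter (H : SignRules N q s) {c d : ℤ} (hc : (N : ℤ) ∣ c) (hcop : IsCoprime c d)
    (hq : IsCoprime (q : ℤ) d) (j : ℕ) : s ((q : ℤ) ^ (2 * j) * c) d = s c d := by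
  induction j with
  | zero => simp
  | succ j ih =>
    have e : (q : ℤ) ^ (2 * (j + 1)) * c = (q : ℤ) ^ 2 * ((q : ℤ) ^ (2 * j) * c) := by ring
    rw [e, H.R4 _ _ (Dvd.dvd.mul_left hc _) ?_, ih]
    exact IsCoprime.mul_left hq.pow_left (IsCoprime.mul_left hq.pow_left hcop)

theorem SG_key (H : SignRules N q s) {ℓ : ℤ} (i : ℕ) (e : ℤ) (he : (q : ℤ) ^ (2 * i) + 1 = ℓ * e)
    (hqℓ : IsCoprime (q : ℤ) ℓ) {c : ℤ} (hc : (N : ℤ) ∣ c) (hcop : IsCoprime c ℓ) :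
    s (-c) ℓ = s c ℓ := by
  rw [← SG_iter H hc hcop hqℓ i]
  obtain ⟨c', rfl⟩ := hc
  have e1 : (q : ℤ) ^ (2 * i) * (N * c') = -(N * c') + N * (c' * e) * ℓ := by
    linear_combination (N * c' : ℤ) * he
  rw [e1, H.R2 _ _ _ (Dvd.dvd.neg_right (Dvd.intro _ rfl)) hcop.neg_left]

theorem SG_transport (H : SignRules N q s) {c d : ℤ} (hc : (N : ℤ) ∣ c) (hcop : IsCoprime c d)
    (x : ℤ) (h : s (-c) (d + x * c) = s c (d + x * c)) : s (-c) d = s c d := by
  rw [H.R1 c d x hc hcop] at h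
  have h2 := H.R1 (-c) d (-x) (Dvd.dvd.neg_right hc) hcop.neg_left
  rw [neg_mul_neg] at h2
  rw [← h2, h]

theorem SG_stepD (H : SignRules N q s) (hq : q.Prime) (hq2 : q ≠ 2) {c d : ℤ}
    (hc : (N : ℤ) ∣ c) (hcop : IsCoprime c d) (hqc : ¬ (q : ℤ) ∣ c) (hd4 : d % 4 = 1)
    (hdq : ¬ IsSquare (d : ZMod q)) : s (-c) d = s c d := by
  have : Fact q.Prime := ⟨hq⟩
  have hc0 : c ≠ 0 := by
    rintro rfl
    exact hqc (dvd_zero _)
  have hqZ : Prime (q : ℤ) := Nat.prime_iff_prime_int.mp hq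
  have hdq0 : ¬ (q : ℤ) ∣ d := by
    intro h
    apply hdq
    rw [(ZMod.intCast_zmod_eq_zero_iff_dvd d q).mpr h]
    exact IsSquare.zero
  have hm : 4 * c.natAbs * q ≠ 0 :=
    mul_ne_zero (mul_ne_zero (by norm_num) (Int.natAbs_ne_zero.mpr hc0)) hq.ne_zero
  have hcop' : IsCoprime d ((4 * c.natAbs * q : ℕ) : ℤ) := by
    push_cast
    refine IsCoprime.mul_right (IsCoprime.mul_right ?_ ?_) ?_
    · have : IsCoprime d (2 : ℤ) := by
        rw [isCoprime_comm, Prime.coprime_iff_not_dvd Int.prime_two]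
        omega
      have h4 : (4 : ℤ) = 2 ^ 2 := by norm_num
      rw [h4]
      exact this.pow_right
    · rcases abs_choice c with h | h
      · rw [h]; exact hcop.symm
      · rw [h]; exact hcop.symm.neg_right
    · rw [isCoprime_comm, Prime.coprime_iff_not_dvd hqZ]
      exact hdq0
  obtain ⟨ℓ, -, hℓ, hmod⟩ := Nat.forall_exists_prime_gt_and_zmodEq 0 hm hcop'
  have : Fact ℓ.Prime := ⟨hℓ⟩
  have hdvd : ((4 * c.natAbs * q : ℕ) : ℤ) ∣ d - ℓ := hmod.dvd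
  have h4 : (4 : ℤ) ∣ d - ℓ := by
    refine dvd_trans ?_ hdvd
    push_cast
    exact Dvd.dvd.mul_right (Dvd.intro _ rfl) _
  have hcd : c ∣ d - ℓ := by
    refine dvd_trans ?_ hdvd
    push_cast
    exact Dvd.dvd.mul_right (Dvd.dvd.mul_left ((dvd_abs c c).mpr dvd_rfl) _) _
  have hqd : (q : ℤ) ∣ d - ℓ := by
    refine dvd_trans ?_ hdvd
    push_cast
    exact Dvd.intro_left _ rfl
  have hℓ4 : ℓ % 4 = 1 := by omega
  have hℓq : ((ℓ : ℕ) : ZMod q) = (d : ZMod q) := by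
    have := (ZMod.intCast_eq_intCast_iff_dvd_sub (ℓ : ℤ) d q).mpr hqd
    simpa using this
  have hL1 : legendreSym q ℓ = -1 := by
    rw [legendreSym.eq_neg_one_iff', hℓq]
    exact hdq
  have hL2 : legendreSym ℓ q = -1 := by
    rw [← legendreSym.quadratic_reciprocity_one_mod_four hℓ4 hq2]
    exact hL1
  have hE := legendreSym.eq_pow ℓ (q : ℤ)
  rw [hL2] at hE
  have hi : ℓ / 2 = 2 * (ℓ / 4) := by omega
  rw [hi] at hE
  have hdiv : (ℓ : ℤ) ∣ (q : ℤ) ^ (2 * (ℓ / 4)) + 1 := by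
    rw [← ZMod.intCast_zmod_eq_zero_iff_dvd]
    push_cast
    push_cast at hE
    rw [← hE]
    ring
  obtain ⟨e, he⟩ := hdiv
  have hne : q ≠ ℓ := by
    rintro rfl
    apply hdq
    rw [← hℓq, ZMod.natCast_self]
    exact IsSquare.zero
  have hqℓ : IsCoprime (q : ℤ) (ℓ : ℤ) :=
    Nat.isCoprime_iff_coprime.mpr ((Nat.coprime_primes hq hℓ).mpr hne)
  obtain ⟨x, hx⟩ := hcd
  have hℓd : (ℓ : ℤ) = d + (-x) * c := by linear_combination -hx
  apply SG_transport H hc hcop (-x)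
  rw [← hℓd]
  refine SG_key H (ℓ / 4) e he hqℓ hc ?_
  rw [hℓd]
  exact hcop.add_mul_right_right _

theorem SG_stepC (H : SignRules N q s) (hq : q.Prime) (hq2 : q ≠ 2) {c d : ℤ}
    (hc : (N : ℤ) ∣ c) (hcop : IsCoprime c d) (hqc : ¬ (q : ℤ) ∣ c) (hd4 : d % 4 = 1) :
    s (-c) d = s c d := by
  have : Fact q.Prime := ⟨hq⟩
  obtain ⟨n₀, hn₀⟩ := FiniteField.exists_nonsquare (F := ZMod q) (by
    rw [ZMod.ringChar_zmod_n]; exact hq2)
  have hc0 : ((c : ℤ) : ZMod q) ≠ 0 := by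
    rw [Ne, ZMod.intCast_zmod_eq_zero_iff_dvd]
    exact hqc
  have h40 : (4 : ZMod q) ≠ 0 := by
    have h2 : (2 : ZMod q) ≠ 0 := by
      intro h
      have h' : ((2 : ℕ) : ZMod q) = 0 := by exact_mod_cast h
      rw [ZMod.natCast_eq_zero_iff] at h'
      exact hq2 ((Nat.prime_dvd_prime_iff_eq hq Nat.prime_two).mp h')
    have : (4 : ZMod q) = 2 * 2 := by norm_num
    rw [this]
    exact mul_ne_zero h2 h2
  obtain ⟨x, hx⟩ := ZMod.intCast_surjective ((n₀ - (d : ZMod q)) * (4 * (c : ZMod q))⁻¹)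
  apply SG_transport H hc hcop (4 * x)
  refine SG_stepD H hq hq2 hc (hcop.add_mul_right_right _) hqc ?_ ?_
  · have : d + 4 * x * c = d + 4 * (x * c) := by ring
    rw [this]
    omega
  · have : ((d + 4 * x * c : ℤ) : ZMod q) = n₀ := by
      push_cast
      rw [hx]
      field_simp
      ring
    rw [this]
    exact hn₀

theorem SG_stepB' (H : SignRules N q s) (hq : q.Prime) (hq2 : q ≠ 2) {c d : ℤ}
    (hc : (N : ℤ) ∣ c) (hcop : IsCoprime c d) (hqc : ¬ (q : ℤ) ∣ c) (hd : d % 2 = 1) :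
    s (-c) d = s c d := by
  have h13 : d % 4 = 1 ∨ d % 4 = 3 := by omega
  rcases h13 with h | h
  · exact SG_stepC H hq hq2 hc hcop hqc h
  · have h1 := SG_stepC H hq hq2 (c := -c) (d := -d) (Dvd.dvd.neg_right hc)
      hcop.neg_neg (by rwa [dvd_neg]) (by omega)
    rw [neg_neg] at h1
    have h2 := H.R3 c d hc hcop
    have h3 := H.R3 (-c) d (Dvd.dvd.neg_right hc) hcop.neg_left
    rw [neg_neg] at h3
    rw [← h3, h1, h2]

theorem SG_stepB (H : SignRules N q s) (hq : q.Prime) (hq2 : q ≠ 2) {c d : ℤ}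
    (hc : (N : ℤ) ∣ c) (hcop : IsCoprime c d) (hqc : ¬ (q : ℤ) ∣ c) :
    s (-c) d = s c d := by
  by_cases hd : d % 2 = 1
  · exact SG_stepB' H hq hq2 hc hcop hqc hd
  · have hc2 : c % 2 = 1 := by
      by_contra hc2
      have h1 : (2 : ℤ) ∣ c := by omega
      have h2 : (2 : ℤ) ∣ d := by omega
      have := hcop.isUnit_of_dvd' h1 h2
      rw [Int.isUnit_iff] at this
      omega
    apply SG_transport H hc hcop 1
    exact SG_stepB' H hq hq2 hc (hcop.add_mul_right_right _) hqc (by omega)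

/-- the case `q = 2`: `ℓ ≡ 5 mod 8` -/
theorem SG_two_D (H : SignRules N 2 s) {c d : ℤ}
    (hc : (N : ℤ) ∣ c) (hcop : IsCoprime c d) (hqc : c % 2 = 1) (hd8 : d % 8 = 5) :
    s (-c) d = s c d := by
  have hc0 : c ≠ 0 := by
    rintro rfl
    omega
  have hm : 8 * c.natAbs ≠ 0 := mul_ne_zero (by norm_num) (Int.natAbs_ne_zero.mpr hc0)
  have hcop' : IsCoprime d ((8 * c.natAbs : ℕ) : ℤ) := by
    push_cast
    refine IsCoprime.mul_right ?_ ?_
    · have : IsCoprime d (2 : ℤ) := by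
        rw [isCoprime_comm, Prime.coprime_iff_not_dvd Int.prime_two]
        omega
      have h8 : (8 : ℤ) = 2 ^ 3 := by norm_num
      rw [h8]
      exact this.pow_right
    · rcases abs_choice c with h | h
      · rw [h]; exact hcop.symm
      · rw [h]; exact hcop.symm.neg_right
  obtain ⟨ℓ, -, hℓ, hmod⟩ := Nat.forall_exists_prime_gt_and_zmodEq 0 hm hcop'
  have : Fact ℓ.Prime := ⟨hℓ⟩
  have hdvd : ((8 * c.natAbs : ℕ) : ℤ) ∣ d - ℓ := hmod.dvd
  have h8 : (8 : ℤ) ∣ d - ℓ := by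
    refine dvd_trans ?_ hdvd
    push_cast
    exact Dvd.intro _ rfl
  have hcd : c ∣ d - ℓ := by
    refine dvd_trans ?_ hdvd
    push_cast
    exact Dvd.dvd.mul_left ((dvd_abs c c).mpr dvd_rfl) _
  have hℓ8 : ℓ % 8 = 5 := by omega
  have hℓ2 : ℓ ≠ 2 := by
    rintro rfl
    omega
  have hL2 : legendreSym ℓ 2 = -1 := by
    rw [legendreSym.eq_neg_one_iff]
    have h := ZMod.exists_sq_eq_two_iff hℓ2
    push_cast
    rw [h]
    omega
  have hE := legendreSym.eq_pow ℓ 2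
  rw [hL2] at hE
  have hi : ℓ / 2 = 2 * (ℓ / 4) := by omega
  rw [hi] at hE
  have hdiv : (ℓ : ℤ) ∣ ((2 : ℕ) : ℤ) ^ (2 * (ℓ / 4)) + 1 := by
    rw [← ZMod.intCast_zmod_eq_zero_iff_dvd]
    push_cast
    push_cast at hE
    rw [← hE]
    ring
  obtain ⟨e, he⟩ := hdiv
  have hqℓ : IsCoprime ((2 : ℕ) : ℤ) (ℓ : ℤ) :=
    Nat.isCoprime_iff_coprime.mpr ((Nat.coprime_primes Nat.prime_two hℓ).mpr hℓ2.symm)
  obtain ⟨x, hx⟩ := hcd
  have hℓd : (ℓ : ℤ) = d + (-x) * c := by linear_combination -hx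
  apply SG_transport H hc hcop (-x)
  rw [← hℓd]
  refine SG_key H (ℓ / 4) e he hqℓ hc ?_
  rw [hℓd]
  exact hcop.add_mul_right_right _

theorem SG_two_B (H : SignRules N 2 s) {c d : ℤ}
    (hc : (N : ℤ) ∣ c) (hcop : IsCoprime c d) (hqc : c % 2 = 1) :
    s (-c) d = s c d := by
  apply SG_transport H hc hcop ((5 - d) * c)
  refine SG_two_D H hc (hcop.add_mul_right_right _) hqc ?_
  obtain ⟨k, hk⟩ : ∃ k, c = 2 * k + 1 := ⟨c / 2, by omega⟩
  obtain ⟨j, hj⟩ := Int.even_mul_succ_self k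
  have e : d + (5 - d) * c * c = 5 + 8 * (j * (5 - d)) := by
    rw [hk]
    linear_combination (4 * (5 - d)) * hj
  rw [e]
  omega

/-- **(SIGN)**, arithmetic form (`q = 2` allowed) -/
theorem sign_abs (H : SignRules N q s) (hq : q.Prime) (hqN : ¬ q ∣ N) {c d : ℤ}
    (hc : (N : ℤ) ∣ c) (hcop : IsCoprime c d) : s (-c) d = s c d := by
  have key : ∀ {c d : ℤ}, (N : ℤ) ∣ c → IsCoprime c d → ¬ (q : ℤ) ∣ c → s (-c) d = s c d := by
    intro c d hc hcop hqc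
    by_cases hq2 : q = 2
    · subst hq2
      exact SG_two_B H hc hcop (by push_cast at hqc; omega)
    · exact SG_stepB H hq hq2 hc hcop hqc
  by_cases hqc : (q : ℤ) ∣ c
  · have hqZ : Prime (q : ℤ) := Nat.prime_iff_prime_int.mp hq
    have hqd : ¬ (q : ℤ) ∣ d := by
      intro h
      exact hqZ.not_isUnit (hcop.isUnit_of_dvd' hqc h)
    have hqN' : ¬ (q : ℤ) ∣ (N : ℤ) := by exact_mod_cast hqN
    have hqc' : ¬ (q : ℤ) ∣ c + N * 1 * d := by
      intro h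
      have h1 : (q : ℤ) ∣ N * d := by
        have := dvd_sub h hqc
        simpa using this
      rcases hqZ.dvd_or_dvd h1 with h2 | h2
      · exact hqN' h2
      · exact hqd h2
    have hcop' : IsCoprime (c + N * 1 * d) d := by
      have := hcop.symm.add_mul_right_right (N * 1 : ℤ)
      exact this.symm
    have h1 := key (c := c + N * 1 * d) (d := d)
      (dvd_add hc (Dvd.dvd.mul_right (Dvd.dvd.mul_right dvd_rfl _) _)) hcop' hqc'
    rw [H.R2 c d 1 hc hcop] at h1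
    have h2 := H.R2 (-c) d (-1) (Dvd.dvd.neg_right hc) hcop.neg_left
    have e : -c + N * (-1) * d = -(c + N * 1 * d) := by ring
    rw [e] at h2
    rw [← h2, h1]
  · exact key hc hcop hqc

end Fermat.Agent.S41Lib
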